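/-
C1 nodal core, instantiation, BLOCK II (sub-architect helper237): shared definitions.

`K₀ ⊆ K` a subfield (a number field), `F₀ ⊆ K₀((t))` the `K₀`-rational functions, `bc : F₀ → F` the
base change map, `A₀ A K₀ = A ∩ K₀`, and the structure `IsSubLevel` (what has to be known about the
`K₀`-rational functions in order to apply the abstract Layer II, `Nodal/LayerII.lean`).
-/
import Fermat.Agent.S34.Nodal.Inst.Defs

set_option autoImplicit false

noncomputable section

namespace Fermat.Agent.S34.Nodal.Inst.II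

open ModularCurve Fermat.Agent.S18.Vert

variable {K : Type*} [Field K] (A : ValuationSubring K)
variable (F : IntermediateField K (LaurentSeries K)) (w : F ≃ₐ[K] F)
variable {K₀ : Type*} [Field K₀] [Algebra K₀ K] (F₀ : IntermediateField K₀ (LaurentSeries K₀))

/-- `F₀ ⊆ K₀((t))` maps to `F ⊆ K((t))`. -/
def Compat : Prop := ∀ y ∈ F₀, coeffMap (algebraMap K₀ K) y ∈ F

variable {F F₀}

/-- The base change map `F₀ → F`. -/
def bc (hF : Compat F F₀) : F₀ →+* F where
  toFun y := ⟨coeffMap (algebraMap K₀ K) y, hF y y.2⟩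
  map_one' := Subtype.ext (map_one _)
  map_mul' _ _ := Subtype.ext (map_mul _ _ _)
  map_zero' := Subtype.ext (map_zero _)
  map_add' _ _ := Subtype.ext (map_add _ _ _)

theorem coe_bc (hF : Compat F F₀) (y : F₀) :
    (bc hF y : LaurentSeries K) = coeffMap (algebraMap K₀ K) (y : LaurentSeries K₀) := rfl

theorem bc_algebraMap (hF : Compat F F₀) (c : K₀) :
    bc hF (algebraMap K₀ F₀ c) = algebraMap K F (algebraMap K₀ K c) := by
  apply Subtype.ext
  rw [coe_bc]
  show coeffMap (algebraMap K₀ K) (algebraMap K₀ (LaurentSeries K₀) c) =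
    algebraMap K (LaurentSeries K) (algebraMap K₀ K c)
  rw [algebraMap_laurentSeries_eq_single, coeffMap_single, ← algebraMap_laurentSeries_eq_single]

/-- The restriction of `A` to `K₀`. -/
abbrev A₀ (K₀ : Type*) [Field K₀] [Algebra K₀ K] : ValuationSubring K₀ := A.comap (algebraMap K₀ K)

/-- What has to be known about the `K₀`-rational functions. -/
structure IsSubLevel (hF : Compat F F₀) (x : F) (π₀ : K₀) (x₀ : F₀) : Prop where
  noeth : IsNoetherianRing (A₀ A K₀)
  π_ne : π₀ ≠ 0
  π_mem : algebraMap K₀ K π₀ ∈ A.nonunits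
  x_eq : bc hF x₀ = x
  /-- both vertical valuations are unramified over `A₀` -/
  unram : ∀ (y : F₀) (hy : bc hF y ∈ OO A F w), red2 A F w ⟨bc hF y, hy⟩ = 0 →
    bc hF (y / algebraMap K₀ F₀ π₀) ∈ OO A F w
  /-- block G4: the `K₀`-rational part of the chart lies in a finitely generated `A₀[x]`-module -/
  fin1 : ∃ S : Finset F₀, ∀ b : F₀, bc hF b ∈ chart A F w x →
    b ∈ Submodule.span (Algebra.adjoin (A₀ A K₀) {x₀}) (S : Set F₀)

/-- Block G4 (the field `fin1` of `IsSubLevel`) as a separate proposition.  State it for an abstract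
type `K₀`; instance search is very slow when `K₀` is the coercion of an `IntermediateField`. -/
def Fin1 (hF : Compat F F₀) (x : F) (x₀ : F₀) : Prop :=
  ∃ S : Finset F₀, ∀ b : F₀, bc hF b ∈ chart A F w x →
    b ∈ Submodule.span (Algebra.adjoin (A₀ A K₀) {x₀}) (S : Set F₀)

end Fermat.Agent.S34.Nodal.Inst.II

end
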