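/-
C1 nodal core, instantiation, BLOCK II (sub-architect helper237).  Task NOD-II-E1.

The modular function fields `FK K₀ N ⊆ K₀((t))` and `FK K N ⊆ K((t))` for a field extension `K / K₀`
of characteristic zero: base change, degeneracy maps, integral generators, and the Atkin-Lehner
involution is defined over `K₀`.

Sketches.
* `compat_FK`: `S18.Descent.coeffMap_mem_laurentBaseChange'`.
* `bc_JK`, `bc_al`, `bc_be`: `Subtype.ext`, `coe_bc`, `S36.Mod.coeffMap_Js`, `coe_heckeAlphaBar`,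
  `coe_heckeBetaBar`, `coeffMap_qExpand`.
* `isQuot_FK`: `S36.Mod.FK_induction` with
  `P f := ∃ P Q, inc P ∈ FK ∧ inc Q ∈ FK ∧ Q ≠ 0 ∧ f * inc Q = inc P`; generators:
  `S36.Mod.exists_inc_eq_Js`; the field operations exactly as in
  `S36.Mod.exists_quot_of_mem_quotField` (`S36/Mod/GaussEmb/Defs.lean`), keeping track of the
  membership in `FK` (`mul_mem`, `add_mem`, `map_mul`, ...).
* `exists_bc_eq_w`: `FK_induction` on `y`.  Constants: `bc_algebraMap`, `w.commutes`.  Generator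
  `JK K₀ (M * q) d`: as `q` is prime and `d ∣ M * q`, either `d ∣ M`, and then
  `JK (M * q) d = al (JK M d)` (`S36.Mod.al_JK`), `w` maps it to `be (JK M d) = JK (M * q) (q * d)`
  (`S36.Mod.be_JK`); or `d = q * d'` with `d' ∣ M` (`(Nat.Prime.coprime_iff_not_dvd ..)`,
  `Nat.Coprime.dvd_of_dvd_mul_right`; compare the proof of `C1.FN_mul_induction` in `C1/AL.lean`) and
  `JK (M * q) d = be (JK M d')` is mapped to `al (JK M d') = JK (M * q) d'`.  Use `JK_congr` to
  rewrite indices.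
-/
import Fermat.Agent.S34.Nodal.Inst.II.Defs
import Fermat.Agent.S36.Mod.Fields

set_option autoImplicit false

noncomputable section

namespace Fermat.Agent.S34.Nodal.Inst.II

open ModularCurve Fermat.Agent.S18 Fermat.Agent.S18.Vert Fermat.Agent.S36.Mod

variable (K₀ K : Type*) [Field K₀] [Field K] [Algebra ℚ K₀] [Algebra ℚ K] [Algebra K₀ K]

theorem compat_FK (N : ℕ) : Compat (FK K N) (FK K₀ N) := fun _ hy =>
  S18.Descent.coeffMap_mem_laurentBaseChange' (algebraMap K₀ K) hy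

variable {K₀ K}

theorem bc_JK (N d : ℕ) [NeZero d] (hd : d ∣ N) :
    bc (compat_FK K₀ K N) (JK K₀ N d hd) = JK K N d hd := by
  apply Subtype.ext
  rw [coe_bc, coe_JK, coe_JK, coeffMap_Js]

theorem bc_al (M q : ℕ) [NeZero M] [NeZero q] (y : FK K₀ M) :
    bc (compat_FK K₀ K (M * q)) (heckeAlphaBar K₀ M q y) =
      heckeAlphaBar K M q (bc (compat_FK K₀ K M) y) := by
  apply Subtype.ext
  rw [coe_bc, coe_heckeAlphaBar, coe_heckeAlphaBar, coe_bc]

theorem bc_be (M q : ℕ) [NeZero M] [NeZero q] (y : FK K₀ M) :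
    bc (compat_FK K₀ K (M * q)) (heckeBetaBar K₀ M q y) =
      heckeBetaBar K M q (bc (compat_FK K₀ K M) y) := by
  apply Subtype.ext
  rw [coe_bc, coe_heckeBetaBar, coe_heckeBetaBar, coe_bc, coeffMap_qExpand]

/-- `FK K₀ N` is generated by integral series, for every valuation subring and every level. -/
theorem isQuot_FK (B : ValuationSubring K₀) (N : ℕ) : IsQuot B (FK K₀ N) := by
  intro f
  induction f using FK_induction with
  | hJ d hne hd =>
    obtain ⟨P, hP, -⟩ := exists_inc_eq_Js B d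
    refine ⟨P, 1, ?_, ?_, one_ne_zero, ?_⟩
    · rw [hP]; exact (JK K₀ N d hd).2
    · rw [map_one]; exact one_mem _
    · rw [map_one, mul_one, coe_JK, hP]
  | hc c =>
    show ∃ P Q : LaurentSeries B, inc B P ∈ FK K₀ N ∧ inc B Q ∈ FK K₀ N ∧ Q ≠ 0 ∧
      algebraMap K₀ (LaurentSeries K₀) c * inc B Q = inc B P
    rcases B.mem_or_inv_mem c with hc | hc
    · exact ⟨HahnSeries.C ⟨c, hc⟩, 1, inc_C_mem _, by rw [map_one]; exact one_mem _, one_ne_zero,
        by rw [map_one, mul_one, inc_C]⟩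
    · by_cases hc0 : c = 0
      · exact ⟨0, 1, by rw [map_zero]; exact zero_mem _, by rw [map_one]; exact one_mem _,
          one_ne_zero, by rw [hc0, map_zero, map_zero, zero_mul]⟩
      · refine ⟨1, HahnSeries.C ⟨c⁻¹, hc⟩, by rw [map_one]; exact one_mem _, inc_C_mem _,
          C_ne_zero (fun h => ?_), ?_⟩
        · exact inv_ne_zero hc0 (congrArg Subtype.val h)
        · rw [inc_C, ← map_mul, mul_inv_cancel₀ hc0, map_one, map_one]
  | hadd y z hy hz =>
    obtain ⟨P, Q, hP, hQ, hQ0, h⟩ := hy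
    obtain ⟨P', Q', hP', hQ', hQ0', h'⟩ := hz
    refine ⟨P * Q' + P' * Q, Q * Q', ?_, ?_, mul_ne_zero hQ0 hQ0', ?_⟩
    · rw [map_add, map_mul, map_mul]; exact add_mem (mul_mem hP hQ') (mul_mem hP' hQ)
    · rw [map_mul]; exact mul_mem hQ hQ'
    · rw [map_add, map_mul, map_mul, map_mul, ← h, ← h']
      push_cast
      ring
  | hneg y hy =>
    obtain ⟨P, Q, hP, hQ, hQ0, h⟩ := hy
    refine ⟨-P, Q, by rw [map_neg]; exact neg_mem hP, hQ, hQ0, ?_⟩
    rw [map_neg, ← h]
    push_cast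
    ring
  | hmul y z hy hz =>
    obtain ⟨P, Q, hP, hQ, hQ0, h⟩ := hy
    obtain ⟨P', Q', hP', hQ', hQ0', h'⟩ := hz
    refine ⟨P * P', Q * Q', ?_, ?_, mul_ne_zero hQ0 hQ0', ?_⟩
    · rw [map_mul]; exact mul_mem hP hP'
    · rw [map_mul]; exact mul_mem hQ hQ'
    · rw [map_mul, map_mul, ← h, ← h']
      push_cast
      ring
  | hinv y hy =>
    obtain ⟨P, Q, hP, hQ, hQ0, h⟩ := hy
    by_cases hy0 : (y : LaurentSeries K₀) = 0
    · refine ⟨0, 1, by rw [map_zero]; exact zero_mem _, by rw [map_one]; exact one_mem _,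
        one_ne_zero, ?_⟩
      rw [IntermediateField.coe_inv, hy0, inv_zero, zero_mul, map_zero]
    · refine ⟨Q, P, hQ, hP, fun hP0 => ?_, ?_⟩
      · rw [hP0, map_zero] at h
        rcases mul_eq_zero.mp h with h1 | h1
        · exact hy0 h1
        · exact hQ0 ((inc_eq_zero_iff B).mp h1)
      · rw [IntermediateField.coe_inv, ← h, inv_mul_cancel_left₀ hy0]

/-- The Atkin-Lehner involution is defined over `K₀`. -/
theorem exists_bc_eq_w (M q : ℕ) [NeZero M] [NeZero q] (hq : q.Prime)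
    (w : FK K (M * q) ≃ₐ[K] FK K (M * q))
    (hal : ∀ y : FK K M, w (heckeAlphaBar K M q y) = heckeBetaBar K M q y)
    (hbe : ∀ y : FK K M, w (heckeBetaBar K M q y) = heckeAlphaBar K M q y)
    (y : FK K₀ (M * q)) :
    ∃ y' : FK K₀ (M * q), bc (compat_FK K₀ K (M * q)) y' = w (bc (compat_FK K₀ K (M * q)) y) := by
  induction y using FK_induction with
  | hJ d hne hd =>
    by_cases hqd : q ∣ d
    · obtain ⟨d', rfl⟩ := hqd
      have hne' : NeZero d' := ⟨fun h => hne.out (by rw [h, mul_zero])⟩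
      have hd' : d' ∣ M := by
        rw [mul_comm M q] at hd
        exact Nat.dvd_of_mul_dvd_mul_left hq.pos hd
      refine ⟨heckeAlphaBar K₀ M q (JK K₀ M d' hd'), ?_⟩
      rw [← be_JK M q d' hd' hd, bc_be, bc_al, hbe]
    · have hd' : d ∣ M :=
        (((Nat.Prime.coprime_iff_not_dvd hq).mpr hqd).symm).dvd_of_dvd_mul_right hd
      refine ⟨heckeBetaBar K₀ M q (JK K₀ M d hd'), ?_⟩
      rw [JK_congr K₀ (M * q) rfl hd (hd'.mul_right q), ← al_JK M q d hd', bc_be, bc_al, hal]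
  | hc c =>
    exact ⟨algebraMap K₀ _ c, by rw [bc_algebraMap, w.commutes]⟩
  | hadd y z hy hz =>
    obtain ⟨y', hy'⟩ := hy
    obtain ⟨z', hz'⟩ := hz
    exact ⟨y' + z', by rw [map_add, map_add, map_add, hy', hz']⟩
  | hneg y hy =>
    obtain ⟨y', hy'⟩ := hy
    exact ⟨-y', by rw [map_neg, map_neg, map_neg, hy']⟩
  | hmul y z hy hz =>
    obtain ⟨y', hy'⟩ := hy
    obtain ⟨z', hz'⟩ := hz
    exact ⟨y' * z', by rw [map_mul, map_mul, map_mul, hy', hz']⟩
  | hinv y hy =>
    obtain ⟨y', hy'⟩ := hy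
    exact ⟨y'⁻¹, by rw [map_inv₀, map_inv₀, map_inv₀, hy']⟩

end Fermat.Agent.S34.Nodal.Inst.II

end
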