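/-
C1 nodal core, instantiation, BLOCK II (sub-architect helper237).  Task NOD-II-E2.

Adaptor: from the language of `S18/Defs.lean`, `BAD/LevelQ` (charts `S18.chart A₀ x` = integral closure
of `A₀[x]`, complete families `IsMVert` of vertical valuation rings) to the field `fin1` of
`IsSubLevel`.

Sketches.
* `mem_span_adjoin`: `Submodule.span_induction` on the hypothesis; a generator `x ^ a * e` is
  `(x ^ a : adjoin) • e`; a scalar of `A₀.toSubring.map (algebraMap K₀ L)` is `algebraMap A₀ L a`,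
  an element of `Algebra.adjoin A₀ {x}`.
* `isIntegral_adjoin_iff`: `S18.polyRing ⊤ x` and `Algebra.adjoin k {x}` have the same elements
  (`S18.descChart_mem_polyRing_top`, `Algebra.adjoin_singleton_eq_range_aeval`); transport
  integrality with `IsIntegral.map_of_comp_eq` (identity on `L`) or `IsIntegral.tower_top`-like
  arguments: a monic polynomial over one subring gives a monic polynomial over the other.
* `fin1_of_integral`: `LevelQ.chart_fin` and `mem_span_adjoin`.
* `mem_chart_of_isMVert`: `LevelQ.mem_chart_iff`, `S18.mem_chart_top_descent (bc hF) (bc_algebraMap hF)`,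
  `isIntegral_adjoin_iff`.
* `mem_of_isGauss`: `y * inc Q = inc P` with `red Q ≠ 0`; `hG.mem P`, `hG.inv_mem Q`;
  `inc B = coeffMap B.subtype`, `red B = coeffMap (residue B)` by definition (`S18/Vert/IntSeries.lean`).
-/
import Fermat.Agent.S34.Nodal.Inst.II.Defs
import Fermat.Agent.S18.ModDefs
import Fermat.Agent.S18.Descent.Chart
import Fermat.Agent.BAD.LevelQ.Abs.Finite
import Fermat.Agent.BAD.LevelQ.Abs.Mem

set_option autoImplicit false

noncomputable section

namespace Fermat.Agent.S34.Nodal.Inst.II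

open ModularCurve Fermat.Agent.S18 Fermat.Agent.S18.Vert Fermat.Agent.BAD IntermediateField

/-- from `A₀`-spans of `x ^ a * e` to `A₀[x]`-spans. -/
theorem mem_span_adjoin {k L : Type*} [Field k] [Field L] [Algebra k L] (B : ValuationSubring k)
    (x : L) (S : Finset L) {b : L}
    (hb : b ∈ Submodule.span (B.toSubring.map (algebraMap k L))
      {y : L | ∃ (a : ℕ) (e : L), e ∈ S ∧ y = x ^ a * e}) :
    b ∈ Submodule.span (Algebra.adjoin B {x}) (S : Set L) := by
  induction hb using Submodule.span_induction with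
  | mem y hy =>
    obtain ⟨a, e, he, rfl⟩ := hy
    have hx : x ^ a ∈ Algebra.adjoin B {x} := pow_mem (Algebra.self_mem_adjoin_singleton B x) a
    have h1 : x ^ a * e = (⟨x ^ a, hx⟩ : Algebra.adjoin B {x}) • e := rfl
    rw [h1]
    exact Submodule.smul_mem _ _ (Submodule.subset_span he)
  | zero => exact Submodule.zero_mem _
  | add a b _ _ ha hb => exact Submodule.add_mem _ ha hb
  | smul r z _ hz =>
    obtain ⟨r, c, hc, rfl⟩ := r
    have hmem : algebraMap k L c ∈ Algebra.adjoin B {x} :=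
      (Algebra.adjoin B {x}).algebraMap_mem ⟨c, hc⟩
    exact Submodule.smul_mem _ (⟨_, hmem⟩ : Algebra.adjoin B {x}) hz

/-- the two ways of saying "integral over `k[x]`". -/
theorem isIntegral_adjoin_iff {k L : Type*} [Field k] [Field L] [Algebra k L] (x z : L) :
    IsIntegral (Algebra.adjoin k {x}) z ↔ z ∈ S18.chart (⊤ : Subring k) x := by
  rw [S18.mem_chart_iff_isIntegral]
  constructor
  · intro h
    exact h.map_of_comp_eq
      ((Algebra.adjoin k {x}).val.toRingHom.codRestrict (S18.polyRing (⊤ : Subring k) x)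
        (fun a => (S18.mem_polyRing_top_iff x _).mpr a.2)) (RingHom.id L) rfl
  · intro h
    exact h.map_of_comp_eq
      ((S18.polyRing (⊤ : Subring k) x).subtype.codRestrict (Algebra.adjoin k {x})
        (fun a => (S18.mem_polyRing_top_iff x _).mp a.2)) (RingHom.id L) rfl

variable {K : Type*} [Field K] {A : ValuationSubring K}
variable {F : IntermediateField K (LaurentSeries K)} {w : F ≃ₐ[K] F}
variable {K₀ : Type*} [Field K₀] [Algebra K₀ K] {F₀ : IntermediateField K₀ (LaurentSeries K₀)}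

/-- `fin1` from integrality over `A₀[x₀]`. -/
theorem fin1_of_integral [CharZero K₀] {hF : Compat F F₀} {x : F} {ϖ₀ : K₀} {x₀ : F₀}
    (h₀ : IsUnif (A₀ A K₀) ϖ₀) (hx₀ : Transcendental K₀ x₀) [FiniteDimensional K₀⟮x₀⟯ F₀]
    (hint : ∀ b : F₀, bc hF b ∈ chart A F w x → b ∈ S18.chart (A₀ A K₀).toSubring x₀) :
    ∃ S : Finset F₀, ∀ b : F₀, bc hF b ∈ chart A F w x →
      b ∈ Submodule.span (Algebra.adjoin (A₀ A K₀) {x₀}) (S : Set F₀) := by
  obtain ⟨S, -, hS⟩ := LevelQ.chart_fin h₀ hx₀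
  exact ⟨S, fun b hb => mem_span_adjoin _ x₀ S (hS b (hint b hb))⟩

/-- integrality over `A₀[x₀]` from a complete family of vertical valuation rings. -/
theorem mem_chart_of_isMVert [Algebra.IsAlgebraic K₀ K] {hF : Compat F F₀} {x : F} {ϖ₀ : K₀}
    {x₀ : F₀} (hx : bc hF x₀ = x) {ι : Type*} [Nonempty ι] {V : ι → ValuationSubring F₀}
    (hV : LevelQ.IsMVert (A₀ A K₀) ϖ₀ V K₀⟮x₀⟯) (hc : ∀ c, LevelQ.IsMCoord (A₀ A K₀) (V c) x₀)
    (hmem : ∀ b : F₀, bc hF b ∈ OO A F w → ∀ c, b ∈ V c)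
    (b : F₀) (hb : bc hF b ∈ chart A F w x) : b ∈ S18.chart (A₀ A K₀).toSubring x₀ := by
  rw [LevelQ.mem_chart_iff hV hc]
  obtain ⟨hO, hI⟩ := Inst.mem_chart.1 hb
  refine ⟨hmem b hO, ?_⟩
  rw [S18.mem_chart_top_descent (bc hF) (bc_algebraMap hF), hx, ← isIntegral_adjoin_iff]
  exact hI

/-- `fin1` from a complete family of vertical valuation rings (block G4). -/
theorem fin1_of_isMVert [CharZero K₀] [Algebra.IsAlgebraic K₀ K] {hF : Compat F F₀} {x : F}
    {ϖ₀ : K₀} {x₀ : F₀} (hx : bc hF x₀ = x) {ι : Type*} [Nonempty ι] {V : ι → ValuationSubring F₀}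
    (hV : LevelQ.IsMVert (A₀ A K₀) ϖ₀ V K₀⟮x₀⟯) (hc : ∀ c, LevelQ.IsMCoord (A₀ A K₀) (V c) x₀)
    (hmem : ∀ b : F₀, bc hF b ∈ OO A F w → ∀ c, b ∈ V c) :
    ∃ S : Finset F₀, ∀ b : F₀, bc hF b ∈ chart A F w x →
      b ∈ Submodule.span (Algebra.adjoin (A₀ A K₀) {x₀}) (S : Set F₀) := by
  obtain ⟨c₀⟩ := ‹Nonempty ι›
  have hx₀ : Transcendental K₀ x₀ :=
    LevelQ.MemAux.transcendental hV.unif₀ (hc c₀) (hV.const_mem c₀)
  have := hV.finite
  have : Nonempty ι := ⟨c₀⟩
  exact fin1_of_integral hV.unif₀ hx₀ (mem_chart_of_isMVert hx hV hc hmem)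

/-- an element of the Gauss subring lies in every Gauss valuation ring in the sense of `IsGauss`. -/
theorem mem_of_isGauss {B : ValuationSubring K₀} {ϖ₀ : K₀} {Ow : ValuationSubring F₀}
    (hG : IsGauss B ϖ₀ F₀ Ow) {y : F₀} (hy : y ∈ gaussSubring B F₀) : y ∈ Ow := by
  obtain ⟨P, Q, hP, hQ, hQ0, h⟩ := hy
  have hQne : (⟨_, hQ⟩ : F₀) ≠ 0 := by
    intro h0
    have h1 : inc B Q = 0 := congrArg Subtype.val h0
    rw [inc_eq_zero_iff] at h1
    rw [h1, map_zero] at hQ0
    exact hQ0 rfl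
  have e : y = (⟨_, hP⟩ : F₀) * (⟨_, hQ⟩ : F₀)⁻¹ := by
    rw [eq_mul_inv_iff_mul_eq₀ hQne]
    exact Subtype.ext h
  rw [e]
  exact Ow.mul_mem _ _ (hG.mem P hP) (hG.inv_mem Q hQ hQ0)

end Fermat.Agent.S34.Nodal.Inst.II

end
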