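/-
C1 nodal core, instantiation, BLOCK II (sub-architect and prover helper237).

Block G4 (`Fin1`) from a complete pair of vertical valuation rings `V 0 = v_∞` (the Gauss valuation
ring of `FK K₀ (M * q)`), `V 1 = v_∞ ∘ w₀`, in the language of `BAD/LevelQ` (helper39's hub `LQ`:
`hV = LQ.isMVert`, `hc = LQ.isMCoord`, `hV1 = LQ.V_one`).
-/
import Fermat.Agent.S34.Nodal.Inst.II.Fin
import Fermat.Agent.S34.Nodal.Inst.II.FK
import Fermat.Agent.S34.Nodal.Inst.II.Unram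

set_option autoImplicit false
set_option linter.unusedSectionVars false

noncomputable section

namespace Fermat.Agent.S34.Nodal.Inst.II

open ModularCurve Fermat.Agent.S18 Fermat.Agent.S18.Vert Fermat.Agent.S36.Mod Fermat.Agent.BAD
  IntermediateField

variable {K₀ K : Type*} [Field K₀] [Field K] [Algebra ℚ K₀] [Algebra ℚ K] [Algebra K₀ K]
variable {M q : ℕ} [NeZero M] [NeZero q]

/-- The Atkin-Lehner involutions over `K₀` and over `K` are compatible. -/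
theorem bc_w (hq : q.Prime) (w : FK K (M * q) ≃ₐ[K] FK K (M * q))
    (hal : ∀ y : FK K M, w (heckeAlphaBar K M q y) = heckeBetaBar K M q y)
    (hbe : ∀ y : FK K M, w (heckeBetaBar K M q y) = heckeAlphaBar K M q y)
    (w₀ : FK K₀ (M * q) ≃ₐ[K₀] FK K₀ (M * q))
    (hal₀ : ∀ y : FK K₀ M, w₀ (heckeAlphaBar K₀ M q y) = heckeBetaBar K₀ M q y)
    (hbe₀ : ∀ y : FK K₀ M, w₀ (heckeBetaBar K₀ M q y) = heckeAlphaBar K₀ M q y)
    (y : FK K₀ (M * q)) :
    bc (compat_FK K₀ K (M * q)) (w₀ y) = w (bc (compat_FK K₀ K (M * q)) y) := by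
  induction y using FK_induction with
  | hJ d hne hd =>
    by_cases hqd : q ∣ d
    · obtain ⟨d', rfl⟩ := hqd
      have hne' : NeZero d' := ⟨fun h => hne.out (by rw [h, mul_zero])⟩
      have hd' : d' ∣ M := by
        rw [mul_comm M q] at hd
        exact Nat.dvd_of_mul_dvd_mul_left hq.pos hd
      rw [← be_JK M q d' hd' hd, hbe₀, bc_be, bc_al, hbe]
    · have hd' : d ∣ M :=
        (((Nat.Prime.coprime_iff_not_dvd hq).mpr hqd).symm).dvd_of_dvd_mul_right hd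
      rw [JK_congr K₀ (M * q) rfl hd (hd'.mul_right q), ← al_JK M q d hd', hal₀, bc_be, bc_al, hal]
  | hc c => rw [w₀.commutes, bc_algebraMap, w.commutes]
  | hadd y z hy hz => rw [map_add, map_add, map_add, map_add, hy, hz]
  | hneg y hy => rw [map_neg, map_neg, map_neg, map_neg, hy]
  | hmul y z hy hz => rw [map_mul, map_mul, map_mul, map_mul, hy, hz]
  | hinv y hy => rw [map_inv₀, map_inv₀, map_inv₀, map_inv₀, hy]

variable {A : ValuationSubring K}

/-- **Block G4** from a complete pair of vertical valuation rings. -/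
theorem fin1_of_two [Algebra.IsAlgebraic K₀ K] [IsDiscreteValuationRing (A₀ A K₀)]
    (hq : q.Prime) (w : FK K (M * q) ≃ₐ[K] FK K (M * q))
    (hal : ∀ y : FK K M, w (heckeAlphaBar K M q y) = heckeBetaBar K M q y)
    (hbe : ∀ y : FK K M, w (heckeBetaBar K M q y) = heckeAlphaBar K M q y)
    (w₀ : FK K₀ (M * q) ≃ₐ[K₀] FK K₀ (M * q))
    (hal₀ : ∀ y : FK K₀ M, w₀ (heckeAlphaBar K₀ M q y) = heckeBetaBar K₀ M q y)
    (hbe₀ : ∀ y : FK K₀ M, w₀ (heckeBetaBar K₀ M q y) = heckeAlphaBar K₀ M q y)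
    {ϖ₀ : K₀} {V : Fin 2 → ValuationSubring (FK K₀ (M * q))} {x₀ : FK K₀ (M * q)}
    (hG : IsGauss (A₀ A K₀) ϖ₀ (FK K₀ (M * q)) (V 0)) (hV1 : ∀ y, y ∈ V 1 ↔ w₀ y ∈ V 0)
    (hV : LevelQ.IsMVert (A₀ A K₀) ϖ₀ V K₀⟮x₀⟯)
    (hc : ∀ c, LevelQ.IsMCoord (A₀ A K₀) (V c) x₀) :
    Fin1 A w (compat_FK K₀ K (M * q)) (bc (compat_FK K₀ K (M * q)) x₀) x₀ := by
  haveI : CharZero K₀ := algebraRat.charZero K₀
  refine fin1_of_isMVert rfl hV hc ?_
  intro b hb c
  have h0 : b ∈ V 0 := mem_of_isGauss hG (mem_gauss_of_bc (isQuot_FK _ _) _ b hb.1)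
  have h1 : b ∈ V 1 := by
    rw [hV1]
    refine mem_of_isGauss hG (mem_gauss_of_bc (isQuot_FK _ _) (compat_FK K₀ K (M * q)) (w₀ b) ?_)
    rw [bc_w hq w hal hbe w₀ hal₀ hbe₀]
    exact hb.2
  fin_cases c
  · exact h0
  · exact h1

end Fermat.Agent.S34.Nodal.Inst.II

end
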