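/-
C1 nodal core, instantiation, BLOCK II (sub-architect helper237).  Task NOD-II-A.

Elementary facts on the rings `gaussSubring A F`, `OO A F w`, `chart A F w x` of `Inst/Defs.lean`
(`A` an arbitrary valuation subring of `K`).

Sketches.
* `inv_mem_gauss`: `f * inc Q = inc P`, `red Q ≠ 0`; `rho_spec` gives `rho f * red Q = red P`, so
  `red P ≠ 0`, and `f⁻¹ * inc P = inc Q` (`f ≠ 0` because `rho f ≠ 0`).
* `inv_mem_OO`: both components of `red2 y` are `1 ≠ 0`; `w y⁻¹ = (w y)⁻¹`.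
* `algebraMap_mem_OO`: `algebraMap_mem_gauss` and `w.commutes`.
* `mem_of_algebraMap_mem_gauss`: if `c ∉ A` then `c⁻¹` is a non-unit of `A`, `rho (c⁻¹) = 0` by
  `rho_algebraMap`, but `c⁻¹ * c = 1`.
* `chart_sat`: `z = c⁻¹ * (c * z)` and constants of `K` are integral over `K[x]`.
* `root_chart`: `IsIntegral.of_pow`.
-/
import Fermat.Agent.S34.Nodal.Inst.Defs

set_option autoImplicit false

noncomputable section

namespace Fermat.Agent.S34.Nodal.Inst.II

open ModularCurve Fermat.Agent.S18.Vert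

variable {K : Type*} [Field K] {A : ValuationSubring K}
variable {F : IntermediateField K (LaurentSeries K)} {w : F ≃ₐ[K] F}

/-- constants are integral over `K[x]`. -/
theorem isIntegral_const (x : F) (c : K) :
    IsIntegral (Algebra.adjoin K {x}) (algebraMap K F c) := by
  have : algebraMap K F c =
      algebraMap (Algebra.adjoin K {x}) F (algebraMap K (Algebra.adjoin K {x}) c) := rfl
  rw [this]
  exact isIntegral_algebraMap

theorem inv_mem_gauss {f : gaussSubring A F} (h : rho A F f ≠ 0) :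
    ((f : F))⁻¹ ∈ gaussSubring A F := by
  obtain ⟨P, Q, hP, hQ, hQ0, hfQ⟩ := f.2
  have h1 := rho_spec f hQ0 hfQ
  have hP0 : red A P ≠ 0 := by
    rw [← h1]
    exact mul_ne_zero h hQ0
  have hf0 : ((f : F) : LaurentSeries K) ≠ 0 := by
    intro h0
    apply h
    have : f = 0 := Subtype.ext (Subtype.ext h0)
    rw [this, map_zero]
  refine ⟨Q, P, hQ, hP, hP0, ?_⟩
  rw [IntermediateField.coe_inv, ← hfQ, ← mul_assoc, inv_mul_cancel₀ hf0, one_mul]

theorem inv_mem_OO {y : OO A F w} (h : red2 A F w y = 1) : ((y : F))⁻¹ ∈ OO A F w := by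
  have h1 : rho A F ⟨y, y.2.1⟩ ≠ 0 := by
    rw [← red2_fst, h]
    exact one_ne_zero
  have h2 : rho A F ⟨w y, y.2.2⟩ ≠ 0 := by
    rw [← red2_snd, h]
    exact one_ne_zero
  have h3 := inv_mem_gauss h1
  have h4 := inv_mem_gauss h2
  rw [mem_OO, map_inv₀]
  exact ⟨h3, h4⟩

variable (A F w)

theorem algebraMap_mem_OO (a : A) : algebraMap K F (a : K) ∈ OO A F w := by
  rw [mem_OO, w.commutes]
  exact ⟨algebraMap_mem_gauss A F a, algebraMap_mem_gauss A F a⟩

theorem red2_algebraMap (a : A) :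
    red2 A F w ⟨algebraMap K F (a : K), algebraMap_mem_OO A F w a⟩ =
      algebraMap (kk A) (LaurentSeries (kk A) × LaurentSeries (kk A)) (IsLocalRing.residue A a) := by
  apply Prod.ext
  · rw [red2_fst]
    exact rho_algebraMap A F a
  · rw [red2_snd]
    have e : (⟨w (algebraMap K F (a : K)), (algebraMap_mem_OO A F w a).2⟩ : gaussSubring A F) =
        ⟨algebraMap K F (a : K), algebraMap_mem_gauss A F a⟩ := Subtype.ext (w.commutes _)
    exact (congrArg (rho A F) e).trans (rho_algebraMap A F a)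

theorem algebraMap_mem_chart (a : A) (x : F) : algebraMap K F (a : K) ∈ chart A F w x := by
  exact ⟨algebraMap_mem_OO A F w a, isIntegral_const x (a : K)⟩

variable {A F w}

/-- a constant which is Gauss integral lies in `A`. -/
theorem mem_of_algebraMap_mem_gauss {c : K} (h : algebraMap K F c ∈ gaussSubring A F) : c ∈ A := by
  by_contra hc
  have hc0 : c ≠ 0 := by
    rintro rfl
    exact hc A.zero_mem
  have hinv : c⁻¹ ∈ A := (A.mem_or_inv_mem c).resolve_left hc
  have hres : IsLocalRing.residue A ⟨c⁻¹, hinv⟩ = 0 := by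
    rw [IsLocalRing.residue_eq_zero_iff, IsLocalRing.mem_maximalIdeal, mem_nonunits_iff]
    rintro ⟨b, hb⟩
    apply hc
    have h1 : ((b⁻¹ : Aˣ) : A) * (⟨c⁻¹, hinv⟩ : A) = 1 := by
      rw [← hb]
      exact b.inv_mul
    have h2 : (((b⁻¹ : Aˣ) : A) : K) * c⁻¹ = 1 := congrArg Subtype.val h1
    have h3 : (((b⁻¹ : Aˣ) : A) : K) = c := by
      field_simp at h2
      exact h2
    rw [← h3]
    exact ((b⁻¹ : Aˣ) : A).2
  have h1 := rho_algebraMap A F ⟨c⁻¹, hinv⟩
  rw [hres, map_zero] at h1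
  have h2 : (⟨algebraMap K F c⁻¹, algebraMap_mem_gauss A F ⟨c⁻¹, hinv⟩⟩ : gaussSubring A F) *
      ⟨algebraMap K F c, h⟩ = 1 := by
    apply Subtype.ext
    show algebraMap K F c⁻¹ * algebraMap K F c = 1
    rw [← map_mul, inv_mul_cancel₀ hc0, map_one]
  have h3 := congrArg (rho A F) h2
  rw [map_mul, map_one, h1, zero_mul] at h3
  exact zero_ne_one h3

theorem self_mem_chart {x : F} (hx : x ∈ OO A F w) : x ∈ chart A F w x := by
  refine ⟨hx, ?_⟩
  have : x = algebraMap (Algebra.adjoin K {x}) F ⟨x, Algebra.subset_adjoin rfl⟩ := rfl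
  show IsIntegral (Algebra.adjoin K {x}) x
  rw [this]
  exact isIntegral_algebraMap

theorem chart_sat {x : F} {c : K} (hc : c ≠ 0) {z : F} (hz : z ∈ OO A F w)
    (h : algebraMap K F c * z ∈ chart A F w x) : z ∈ chart A F w x := by
  refine ⟨hz, ?_⟩
  have e : z = algebraMap K F c⁻¹ * (algebraMap K F c * z) := by
    rw [← mul_assoc, ← map_mul, inv_mul_cancel₀ hc, map_one, one_mul]
  show IsIntegral (Algebra.adjoin K {x}) z
  rw [e]
  exact (isIntegral_const x c⁻¹).mul h.2

theorem root_OO {n : ℕ} (hroot : ∀ z : F, z ^ n ∈ gaussSubring A F → z ∈ gaussSubring A F) (z : F)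
    (hz : z ^ n ∈ OO A F w) : z ∈ OO A F w := by
  refine ⟨hroot z hz.1, hroot (w z) ?_⟩
  rw [← map_pow]
  exact hz.2

theorem root_chart {n : ℕ} (hn : 0 < n)
    (hroot : ∀ z : F, z ^ n ∈ gaussSubring A F → z ∈ gaussSubring A F) (x z : F)
    (hz : z ^ n ∈ chart A F w x) : z ∈ chart A F w x := by
  exact ⟨root_OO hroot z hz.1, IsIntegral.of_pow hn hz.2⟩

end Fermat.Agent.S34.Nodal.Inst.II

end
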