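/-
C1 nodal core, instantiation, BLOCK II (sub-architect helper237).  Task NOD-II-B.

Pure algebra: `K[x]` versus `K[x⁻¹]`, denominators, functions regular everywhere.

Sketches.
* `exists_pow_mul_isIntegral`: let `p` be monic over `k[x⁻¹]` of degree `m` with `p(b) = 0`.  Choose
  `e` such that `x ^ e * c ∈ k[x]` for each of the finitely many coefficients `c` of `p` (an element
  of `k[x⁻¹]` is `aeval x⁻¹ g`, take `e ≥ natDegree g`).  Then `x ^ e * b` is a root of the monic
  polynomial `∑ c_i (x ^ e) ^ (m - i) Y ^ i` (`Polynomial.scaleRoots`) whose coefficients are in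
  `k[x]`.  See also `S18/Chart/Overlap.lean` for the same argument in the language of `S18.chart`;
  you may go through it (`S18.polyRing ⊤ x` has the same elements as `Algebra.adjoin k {x}`).
* `overlap`: the previous lemma and `x ∈ OO`.
* `exists_den`: `f` is algebraic over `K[x]`: `IsAlgebraic.exists_integral_multiple` gives
  `p ≠ 0` in `K[x]` with `p * f` integral.  `p = aeval x g`; multiply `g` by a nonzero constant `c`
  such that all the coefficients of `c g` lie in `A` (finitely many elements of the fraction field of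
  a valuation ring; induction on the support, or `IsLocalization.integerNormalization`-like lemmas).
  `d := aeval x (c g) ∈ OO`, `d ^ n * f = d ^ (n - 1) * (d * f)`.
* `exists_pow_eq_of_mem_charts`: `c` integral over `K[x]` and over `K[x⁻¹]` is algebraic over `K`
  (`S18/Chart/Const.lean`, `const_abs` or the lemmas there), hence in `K` as `K` is algebraically
  closed, hence an `n`-th power (`IsAlgClosed.exists_pow_nat_eq`).
-/
import Fermat.Agent.S34.Nodal.Inst.Defs
import Fermat.Agent.S18.Chart.Const
import Fermat.Agent.S18.Chart.Overlap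

set_option autoImplicit false

noncomputable section

namespace Fermat.Agent.S34.Nodal.Inst.II

open ModularCurve Fermat.Agent.S18.Vert Polynomial

/-- converse of `S18.isIntegral_adjoin_of_mem_chart_top`. -/
theorem mem_chart_top_of_isIntegral {k L : Type*} [Field k] [Field L] [Algebra k L] {x z : L}
    (h : IsIntegral (Algebra.adjoin k {x}) z) :
    z ∈ Fermat.Agent.S18.chart (⊤ : Subring k) x := by
  rw [Fermat.Agent.S18.mem_chart_iff_isIntegral]
  exact Fermat.Agent.S18.isIntegral_of_forall_exists_algebraMap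
    (fun r => ⟨⟨r.1, (Fermat.Agent.S18.mem_polyRing_top_iff x r.1).mpr r.2⟩, rfl⟩) h

/-- an element integral over `k[x⁻¹]` becomes integral over `k[x]` after multiplication by a power
of `x`. -/
theorem exists_pow_mul_isIntegral {k L : Type*} [Field k] [Field L] [Algebra k L] {x b : L}
    (hx : x ≠ 0) (hb : IsIntegral (Algebra.adjoin k {x⁻¹}) b) :
    ∃ e : ℕ, IsIntegral (Algebra.adjoin k {x}) (x ^ e * b) := by
  obtain ⟨N, hN⟩ := Fermat.Agent.S18.chart_overlap (⊤ : Subring k) (inv_ne_zero hx) b
    (mem_chart_top_of_isIntegral hb)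
  rw [inv_inv] at hN
  exact ⟨N, Fermat.Agent.S18.isIntegral_adjoin_of_mem_chart_top hN⟩

variable {K : Type*} [Field K] {A : ValuationSubring K}
variable {F : IntermediateField K (LaurentSeries K)} {w : F ≃ₐ[K] F}

theorem overlap {x : F} (hx : x ≠ 0) (hxO : x ∈ OO A F w) (b : F) (hb : b ∈ chart A F w x⁻¹) :
    ∃ e : ℕ, x ^ e * b ∈ chart A F w x := by
  rw [mem_chart] at hb
  obtain ⟨e, he⟩ := exists_pow_mul_isIntegral hx hb.2
  exact ⟨e, mem_chart.mpr ⟨(OO A F w).mul_mem ((OO A F w).pow_mem hxO e) hb.1, he⟩⟩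

/-- denominators -/
theorem exists_den {x : F} (hxO : x ∈ OO A F w) (halg : Algebra.IsAlgebraic (Algebra.adjoin K {x}) F)
    {n : ℕ} (hn : 0 < n) {f : F} (hf : f ∈ OO A F w) :
    ∃ d : F, d ≠ 0 ∧ d ^ n * f ∈ chart A F w x := by
  obtain ⟨y, hy0, hyf⟩ := (halg.isAlgebraic f).exists_integral_multiple
  obtain ⟨g, hg⟩ : ∃ g : K[X], aeval x g = (y : F) := by
    have h1 : ∀ z : F, z ∈ Algebra.adjoin K {x} → ∃ g : K[X], aeval x g = z := by
      intro z hz
      rw [Algebra.adjoin_singleton_eq_range_aeval] at hz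
      exact hz
    exact h1 _ y.2
  obtain ⟨b, hbM, hb⟩ := IsLocalization.integerNormalization_spec (nonZeroDivisors A) g
  set G : A[X] := IsLocalization.integerNormalization (nonZeroDivisors A) g with hG
  have hb0 : (b : K) ≠ 0 := by
    intro h0
    exact nonZeroDivisors.ne_zero hbM (Subtype.ext h0)
  have hyF : (y : F) ≠ 0 := fun h0 => hy0 (Subtype.ext h0)
  -- the denominator
  have hd : aeval x (G.map (algebraMap A K)) = algebraMap K F (b : K) * (y : F) := by
    rw [hb, ← hg, Algebra.smul_def, map_mul]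
    congr 1
    exact aeval_C x _
  set d : F := aeval x (G.map (algebraMap A K)) with hdd
  have hd0 : d ≠ 0 := by
    rw [hd]
    exact mul_ne_zero ((_root_.map_ne_zero _).mpr hb0) hyF
  have hconst : ∀ a : A, algebraMap K F (a : K) ∈ OO A F w := by
    intro a
    refine mem_OO.mpr ⟨algebraMap_mem_gauss A F a, ?_⟩
    rw [w.commutes]
    exact algebraMap_mem_gauss A F a
  have hdO : d ∈ OO A F w := by
    rw [hdd, aeval_eq_sum_range]
    refine Subring.sum_mem _ (fun i _ => ?_)
    rw [Algebra.smul_def, coeff_map]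
    exact (OO A F w).mul_mem (hconst _) ((OO A F w).pow_mem hxO i)
  have hdR : IsIntegral (Algebra.adjoin K {x}) d := by
    have hmem : d ∈ Algebra.adjoin K {x} := by
      rw [Algebra.adjoin_singleton_eq_range_aeval]
      exact ⟨_, rfl⟩
    exact isIntegral_algebraMap (R := Algebra.adjoin K {x}) (A := F) (x := ⟨d, hmem⟩)
  have hbR : IsIntegral (Algebra.adjoin K {x}) (algebraMap K F (b : K)) :=
    isIntegral_algebraMap (R := Algebra.adjoin K {x}) (A := F)
      (x := algebraMap K (Algebra.adjoin K {x}) (b : K))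
  have hdf : IsIntegral (Algebra.adjoin K {x}) (d * f) := by
    have : d * f = algebraMap K F (b : K) * (y • f) := by
      rw [hd, mul_assoc]
      rfl
    rw [this]
    exact hbR.mul hyf
  refine ⟨d, hd0, mem_chart.mpr ⟨(OO A F w).mul_mem ((OO A F w).pow_mem hdO n) hf, ?_⟩⟩
  obtain ⟨m, rfl⟩ : ∃ m, n = m + 1 := ⟨n - 1, by omega⟩
  rw [pow_succ, mul_assoc]
  exact (hdR.pow m).mul hdf

/-- functions which are regular everywhere are constants, hence `n`-th powers. -/
theorem exists_pow_eq_of_mem_charts [IsAlgClosed K] {x : F} (hx : Transcendental K x) {n : ℕ}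
    (hn : 0 < n) {c : F} (h1 : c ∈ chart A F w x) (h2 : c ∈ chart A F w x⁻¹) :
    ∃ z : F, c = z ^ n := by
  have halg : IsAlgebraic K c := Fermat.Agent.S18.const_abs hx
    (mem_chart_top_of_isIntegral (mem_chart.mp h1).2)
    (mem_chart_top_of_isIntegral (mem_chart.mp h2).2)
  have hint : IsIntegral K c := halg.isIntegral
  have hdeg : (minpoly K c).degree = 1 :=
    IsAlgClosed.degree_eq_one_of_irreducible K (minpoly.irreducible hint)
  obtain ⟨c₀, rfl⟩ := minpoly.mem_range_of_degree_eq_one K c hdeg
  obtain ⟨z, hz⟩ := IsAlgClosed.exists_pow_nat_eq c₀ hn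
  exact ⟨algebraMap K F z, by rw [← map_pow, hz]⟩

end Fermat.Agent.S34.Nodal.Inst.II

end
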