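/-
C1 nodal core, instantiation, BLOCK II (sub-architect helper237).  Task NOD-II-C.

`IsSubLevel` (see `II/Defs.lean`) implies the hypotheses `IsLevel2` of the abstract Layer II for the
rings `O₀ = bc⁻¹ OO`, `B₁ = bc⁻¹ (chart x)`, `B₂ = bc⁻¹ (chart x⁻¹)` of `K₀`-rational functions, and
`IsLevel2.main` then gives the field `layerII` of `Inst.Contracts` for functions defined over `K₀`.

Sketch of `isLevel2` (`π = algebraMap (A₀ A K₀) F₀ ⟨π₀, _⟩ = algebraMap K₀ F₀ π₀` by `rfl`;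
`bc hF π = algebraMap K F (algebraMap K₀ K π₀)` by `bc_algebraMap`; `bc hF` is a ring homomorphism of
fields: `map_inv₀`, `map_div₀`, `map_pow`, injective):
  n_ne: `map_natCast`;  pi_inv: `mem_of_algebraMap_mem_gauss` and `π_mem`;  le: `inf_le_left`;
  const: `algebraMap_mem_chart`;  x_mem: `self_mem_chart`;
  jac: `red2 (bc y) = 1 + red2 (bc π) * red2 (..) = 1` as `red2 (bc π) = 0` (`red2_algebraMap`, the
       residue of a non-unit is `0`), then `inv_mem_OO`;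
  sat: `chart_sat`;  root: `root_OO`, `root_chart`;  overlap: `overlap` (for `x` and for `x⁻¹`,
  `inv_inv`);  ninv: const;  fin1: `L.fin1`.
Sketch of `exists_root`: write `h = bc h₀` etc.  `(h₀ - 1) / π ∈ O₀` by `L.unram`
  (`red2 (bc (h₀ - 1)) = 0`), the same for `s1`, `s2`.  `IsLevel2.main` (instance
  `IsNoetherianRing (A₀ A K₀)` from `L.noeth`) gives `s ≠ 0` with `c := bc s ^ n * h` in both charts,
  `c = z ^ n` by `exists_pow_eq_of_mem_charts`, so `h = (z / bc s) ^ n`.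
-/
import Fermat.Agent.S34.Nodal.Inst.II.Defs
import Fermat.Agent.S34.Nodal.Inst.II.Basic
import Fermat.Agent.S34.Nodal.Inst.II.Overlap
import Fermat.Agent.S34.Nodal.LayerII

set_option autoImplicit false

noncomputable section

namespace Fermat.Agent.S34.Nodal.Inst.II

open ModularCurve Fermat.Agent.S18.Vert

variable {K : Type*} [Field K] {A : ValuationSubring K}
variable {F : IntermediateField K (LaurentSeries K)} {w : F ≃ₐ[K] F}
variable {K₀ : Type*} [Field K₀] [Algebra K₀ K] {F₀ : IntermediateField K₀ (LaurentSeries K₀)}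

theorem bc_pi (hF : Compat F F₀) (π₀ : K₀) (hπA : π₀ ∈ A₀ A K₀) :
    bc hF (algebraMap (A₀ A K₀) F₀ ⟨π₀, hπA⟩) = algebraMap K F (algebraMap K₀ K π₀) :=
  bc_algebraMap hF π₀

theorem bc_const (hF : Compat F F₀) (a : A₀ A K₀) :
    bc hF (algebraMap (A₀ A K₀) F₀ a) =
      algebraMap K F ((⟨algebraMap K₀ K (a : K₀), a.2⟩ : A) : K) :=
  bc_algebraMap hF (a : K₀)

/-- the reduction of a non-unit constant vanishes. -/
theorem red2_const_eq_zero {c : K} (hc : c ∈ A.nonunits) (hcO : algebraMap K F c ∈ OO A F w) :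
    red2 A F w ⟨algebraMap K F c, hcO⟩ = 0 := by
  obtain ⟨hcA, hcm⟩ := A.mem_nonunits_iff_exists_mem_maximalIdeal.1 hc
  have h := red2_algebraMap A F w ⟨c, hcA⟩
  rw [(IsLocalRing.residue_eq_zero_iff _).2 hcm, map_zero] at h
  exact h

/-- `1 + π z` is invertible. -/
theorem inv_mem_OO_of_eq {c : K} (hc : c ∈ A.nonunits) {Y Z : F} (hY : Y ∈ OO A F w)
    (hZ : Z ∈ OO A F w) (e : Y = 1 + algebraMap K F c * Z) : Y⁻¹ ∈ OO A F w := by
  have hcO : algebraMap K F c ∈ OO A F w := algebraMap_mem_OO A F w ⟨c, A.nonunits_subset hc⟩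
  have e' : (⟨Y, hY⟩ : OO A F w) = 1 + ⟨algebraMap K F c, hcO⟩ * ⟨Z, hZ⟩ := Subtype.ext e
  have hred : red2 A F w ⟨Y, hY⟩ = 1 := by
    rw [e', map_add, map_mul, map_one, red2_const_eq_zero hc hcO, zero_mul, add_zero]
  have h3 := inv_mem_OO hred
  exact h3

/-- The hypotheses of the abstract Layer II. -/
theorem IsSubLevel.isLevel2 {hF : Compat F F₀} {x : F} {π₀ : K₀} {x₀ : F₀}
    (L : IsSubLevel A w hF x π₀ x₀) (hπA : π₀ ∈ A₀ A K₀) {n : ℕ} (hn : 0 < n)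
    (hnF : (n : K₀) ≠ 0) (hnA : ((n : K₀))⁻¹ ∈ A₀ A K₀)
    (hroot : ∀ z : F, z ^ n ∈ gaussSubring A F → z ∈ gaussSubring A F)
    (hx : x ≠ 0) (hxO : x ∈ OO A F w) (hxinvO : x⁻¹ ∈ OO A F w) :
    IsLevel2 (A0 := A₀ A K₀) (F := F₀) ⟨π₀, hπA⟩ n ((OO A F w).comap (bc hF))
      ((chart A F w x).comap (bc hF)) ((chart A F w x⁻¹).comap (bc hF)) x₀ := by
  have hπK : algebraMap K₀ K π₀ ≠ 0 := (_root_.map_ne_zero _).mpr L.π_ne
  have hconst : ∀ (y : F) (a : A₀ A K₀), algebraMap (A₀ A K₀) F₀ a ∈ (chart A F w y).comap (bc hF) := by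
    intro y a
    rw [Subring.mem_comap, bc_const]
    exact algebraMap_mem_chart A F w _ y
  have hninv : (n : F₀)⁻¹ = algebraMap (A₀ A K₀) F₀ ⟨((n : K₀))⁻¹, hnA⟩ := by
    show _ = algebraMap K₀ F₀ ((n : K₀))⁻¹
    rw [map_inv₀, map_natCast]
  have hsat : ∀ (y : F), ∀ z ∈ (OO A F w).comap (bc hF),
      algebraMap (A₀ A K₀) F₀ ⟨π₀, hπA⟩ * z ∈ (chart A F w y).comap (bc hF) →
      z ∈ (chart A F w y).comap (bc hF) := by
    intro y z hz h
    rw [Subring.mem_comap, map_mul, bc_pi] at h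
    exact chart_sat hπK hz h
  have hrt : ∀ (y : F) (z : F₀), z ^ n ∈ (chart A F w y).comap (bc hF) →
      z ∈ (chart A F w y).comap (bc hF) := by
    intro y z hz
    rw [Subring.mem_comap, map_pow] at hz
    exact root_chart hn hroot y _ hz
  refine
    { npos := hn
      n_ne := ?_
      pi_ne := ?_
      pi_inv := ?_
      le1 := fun _ hb => hb.1
      le2 := fun _ hb => hb.1
      const1 := hconst x
      const2 := hconst x⁻¹
      x_ne := ?_
      x_mem := ?_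
      xinv_mem := ?_
      jac := ?_
      sat1 := hsat x
      sat2 := hsat x⁻¹
      rootO := ?_
      root1 := hrt x
      root2 := hrt x⁻¹
      overlap1 := ?_
      overlap2 := ?_
      ninv1 := hninv ▸ hconst x _
      ninv2 := hninv ▸ hconst x⁻¹ _
      fin1 := L.fin1 }
  · have : (n : F₀) = algebraMap K₀ F₀ (n : K₀) := (map_natCast _ n).symm
    rw [this]
    exact (_root_.map_ne_zero _).mpr hnF
  · exact (_root_.map_ne_zero (algebraMap K₀ F₀)).mpr L.π_ne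
  · intro h
    rw [Subring.mem_comap, map_inv₀, bc_pi, ← map_inv₀] at h
    have h1 : (algebraMap K₀ K π₀)⁻¹ ∈ A := mem_of_algebraMap_mem_gauss h.1
    have h2 := (A.mem_nonunits_iff).1 L.π_mem
    have h3 := (A.valuation_le_one_iff _).2 h1
    rw [map_inv₀] at h3
    have h4 : A.valuation (algebraMap K₀ K π₀) ≠ 0 := (Valuation.ne_zero_iff _).mpr hπK
    exact absurd h2 (not_lt.mpr ((inv_le_one₀ (zero_lt_iff.mpr h4)).mp h3))
  · rintro rfl
    exact hx (by rw [← L.x_eq, map_zero])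
  · rw [Subring.mem_comap, L.x_eq]
    exact self_mem_chart hxO
  · rw [Subring.mem_comap, map_inv₀, L.x_eq]
    exact self_mem_chart hxinvO
  · intro y hy hy1
    rw [Subring.mem_comap] at hy hy1 ⊢
    have hπF : algebraMap K F (algebraMap K₀ K π₀) ≠ 0 := (_root_.map_ne_zero _).mpr hπK
    rw [map_inv₀]
    refine inv_mem_OO_of_eq L.π_mem hy hy1 ?_
    rw [map_div₀, bc_pi, map_sub, map_one, mul_div_cancel₀ _ hπF, add_sub_cancel]
  · intro z hz
    rw [Subring.mem_comap, map_pow] at hz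
    exact root_OO hroot _ hz
  · intro b hb
    rw [Subring.mem_comap] at hb
    obtain ⟨e, he⟩ := overlap (x := x⁻¹) (inv_ne_zero hx) hxinvO (bc hF b) (by rwa [inv_inv])
    exact ⟨e, by rw [Subring.mem_comap, map_mul, map_pow, map_inv₀, L.x_eq]; exact he⟩
  · intro b hb
    rw [Subring.mem_comap] at hb
    obtain ⟨e, he⟩ := overlap hx hxO (bc hF b) hb
    exact ⟨e, by rw [Subring.mem_comap, map_mul, map_pow, L.x_eq]; exact he⟩

/-- **Block II over one level**, the section (no hypothesis on the constants). -/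
theorem IsSubLevel.exists_section {hF : Compat F F₀} {x : F} {π₀ : K₀} {x₀ : F₀}
    (L : IsSubLevel A w hF x π₀ x₀) {n : ℕ} (hn : 0 < n)
    (hnF : (n : K₀) ≠ 0) (hnA : ((n : K₀))⁻¹ ∈ A₀ A K₀)
    (hroot : ∀ z : F, z ^ n ∈ gaussSubring A F → z ∈ gaussSubring A F)
    (hx : x ≠ 0) (hxO : x ∈ OO A F w) (hxinvO : x⁻¹ ∈ OO A F w)
    (h s1 s2 : OO A F w) (hh : red2 A F w h = 1) (hs1 : red2 A F w s1 = 1)
    (hs2 : red2 A F w s2 = 1) (h1 : (s1 : F) ^ n * h ∈ chart A F w x)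
    (h2 : (s2 : F) ^ n * h ∈ chart A F w x⁻¹) (d : F) (hd : d ≠ 0)
    (hdh : d ^ n * ((h : F))⁻¹ ∈ chart A F w x)
    (hh₀ : (h : F) ∈ (bc hF).range) (hs1₀ : (s1 : F) ∈ (bc hF).range)
    (hs2₀ : (s2 : F) ∈ (bc hF).range) (hd₀ : d ∈ (bc hF).range) :
    ∃ s : F₀, s ≠ 0 ∧ bc hF s ^ n * h ∈ chart A F w x ∧ bc hF s ^ n * h ∈ chart A F w x⁻¹ := by
  have hπA : π₀ ∈ A₀ A K₀ := A.nonunits_subset L.π_mem
  have H := L.isLevel2 hπA hn hnF hnA hroot hx hxO hxinvO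
  have := L.noeth
  obtain ⟨h₀, hh₀⟩ := hh₀
  obtain ⟨t1, ht1⟩ := hs1₀
  obtain ⟨t2, ht2⟩ := hs2₀
  obtain ⟨d₀, hd₀⟩ := hd₀
  -- an element which reduces to `1` is `≡ 1` modulo `π`
  have key : ∀ (y : OO A F w) (y₀ : F₀), bc hF y₀ = y → red2 A F w y = 1 →
      (y₀ - 1) / algebraMap (A₀ A K₀) F₀ ⟨π₀, hπA⟩ ∈ (OO A F w).comap (bc hF) := by
    intro y y₀ hy hr
    have hmem : bc hF (y₀ - 1) ∈ OO A F w := by
      rw [map_sub, map_one, hy]
      exact (OO A F w).sub_mem y.2 (OO A F w).one_mem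
    have he : (⟨bc hF (y₀ - 1), hmem⟩ : OO A F w) = y - 1 := by
      apply Subtype.ext
      show bc hF (y₀ - 1) = (y : F) - 1
      rw [map_sub, map_one, hy]
    exact L.unram (y₀ - 1) hmem (by rw [he, map_sub, hr, map_one, sub_self])
  have hd₀0 : d₀ ≠ 0 := by
    rintro rfl
    exact hd (by rw [← hd₀, map_zero])
  obtain ⟨s, hs0, -, hsB1, hsB2⟩ := H.main (h := h₀) (d := d₀) (s1 := t1) (s2 := t2)
    (key h h₀ hh₀ hh) hd₀0
    (by rw [Subring.mem_comap, map_mul, map_pow, map_inv₀, hd₀, hh₀]; exact hdh)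
    (key s1 t1 ht1 hs1)
    (by rw [Subring.mem_comap, map_mul, map_pow, ht1, hh₀]; exact h1)
    (key s2 t2 ht2 hs2)
    (by rw [Subring.mem_comap, map_mul, map_pow, ht2, hh₀]; exact h2)
  rw [Subring.mem_comap, map_mul, map_pow, hh₀] at hsB1 hsB2
  exact ⟨s, hs0, hsB1, hsB2⟩

/-- **Block II over one level.** -/
theorem IsSubLevel.exists_root [IsAlgClosed K] {hF : Compat F F₀} {x : F} {π₀ : K₀} {x₀ : F₀}
    (L : IsSubLevel A w hF x π₀ x₀) {n : ℕ} (hn : 0 < n)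
    (hnF : (n : K₀) ≠ 0) (hnA : ((n : K₀))⁻¹ ∈ A₀ A K₀)
    (hroot : ∀ z : F, z ^ n ∈ gaussSubring A F → z ∈ gaussSubring A F)
    (hxT : Transcendental K x) (hxO : x ∈ OO A F w) (hxinvO : x⁻¹ ∈ OO A F w)
    (h s1 s2 : OO A F w) (hh : red2 A F w h = 1) (hs1 : red2 A F w s1 = 1)
    (hs2 : red2 A F w s2 = 1) (h1 : (s1 : F) ^ n * h ∈ chart A F w x)
    (h2 : (s2 : F) ^ n * h ∈ chart A F w x⁻¹) (d : F) (hd : d ≠ 0)
    (hdh : d ^ n * ((h : F))⁻¹ ∈ chart A F w x)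
    (hh₀ : (h : F) ∈ (bc hF).range) (hs1₀ : (s1 : F) ∈ (bc hF).range)
    (hs2₀ : (s2 : F) ∈ (bc hF).range) (hd₀ : d ∈ (bc hF).range) :
    ∃ z : F, (h : F) = z ^ n := by
  have hx : x ≠ 0 := by
    rintro rfl
    exact hxT isAlgebraic_zero
  obtain ⟨s, hs0, hsB1, hsB2⟩ := L.exists_section hn hnF hnA hroot hx hxO hxinvO h s1 s2 hh hs1 hs2
    h1 h2 d hd hdh hh₀ hs1₀ hs2₀ hd₀
  obtain ⟨z, hz⟩ := exists_pow_eq_of_mem_charts hxT hn hsB1 hsB2
  have hs0' : bc hF s ≠ 0 := (_root_.map_ne_zero _).mpr hs0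
  refine ⟨z / bc hF s, ?_⟩
  rw [div_pow, ← hz, mul_div_cancel_left₀ _ (pow_ne_zero n hs0')]

end Fermat.Agent.S34.Nodal.Inst.II

end
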