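/-
C1 nodal core, instantiation, BLOCK II (sub-architect helper237).  Task NOD-II-D.

The Gauss valuation of `F ⊆ K((t))` is unramified over the Gauss valuation of `F₀ ⊆ K₀((t))`, when
`A₀ = A ∩ K₀` is a discrete valuation ring and `F₀` is generated by `A₀`-integral series.

Sketches.
* `incl₀ : A₀ A K₀ →+* A` is the restriction of `algebraMap K₀ K`; it is a local homomorphism
  (`a ∈ A₀` with `(algebraMap a)⁻¹ ∈ A` has `a⁻¹ ∈ A₀`), so the induced map of residue fields is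
  injective and `red A (coeffMap incl₀ P) = coeffMap (ResidueField.map incl₀) (red A₀ P)` is nonzero
  if `red A₀ P ≠ 0`; `inc A (coeffMap incl₀ P) = coeffMap (algebraMap K₀ K) (inc A₀ P)`
  (`coeffMap_coeffMap`, both sides are `coeffMap` of the same composite).  Compare
  `S36/Mod/GaussEmb/Defs.lean` (`isLocalHom_restrict`, `coeffMap_mem_quotField`).
* `bc_mem_gauss`: transport `P`, `Q`.
* `unram_gauss`: `y = 0` trivial.  Otherwise `IsQuot.exists_normal`: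
  `y * (π ^ b * Q) = π ^ a * P`, `red P ≠ 0`, `red Q ≠ 0`.  Let `u = bc (P / Q)`, a unit of the Gauss
  ring of `F` with `rho u ≠ 0` (`rho_spec`).  `bc y * π ^ b = π ^ a * u`.  If `a ≤ b`:
  `bc y * π ^ (b - a) = u`, apply `rho`: `0 = rho u`, contradiction.  So `a ≥ b + 1` and
  `bc (y / π) = π ^ (a - b - 1) * u`.
* `unram_OO`: apply `unram_gauss` to `y` and to `y'` with `bc y' = w (bc y)`;
  `w (bc (y / π)) = w (bc y) / π = bc (y' / π)` (`bc_algebraMap`, `w.commutes`).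
-/
import Fermat.Agent.S34.Nodal.Inst.II.Defs

set_option autoImplicit false

noncomputable section

namespace Fermat.Agent.S34.Nodal.Inst.II

open ModularCurve Fermat.Agent.S18.Vert

variable {K : Type*} [Field K] {A : ValuationSubring K}
variable {F : IntermediateField K (LaurentSeries K)} {w : F ≃ₐ[K] F}
variable {K₀ : Type*} [Field K₀] [Algebra K₀ K] {F₀ : IntermediateField K₀ (LaurentSeries K₀)}

/-- the inclusion `A ∩ K₀ → A`. -/
def incl₀ (A : ValuationSubring K) (K₀ : Type*) [Field K₀] [Algebra K₀ K] : A₀ A K₀ →+* A :=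
  ((algebraMap K₀ K).comp (A₀ A K₀).subtype).codRestrict A fun a => a.2

theorem coe_incl₀ (a : A₀ A K₀) : (incl₀ A K₀ a : K) = algebraMap K₀ K (a : K₀) := rfl

/-- transport of integral series. -/
def tr (A : ValuationSubring K) (K₀ : Type*) [Field K₀] [Algebra K₀ K] :
    LaurentSeries (A₀ A K₀) →+* LaurentSeries A := coeffMap (incl₀ A K₀)

theorem inc_tr (P : LaurentSeries (A₀ A K₀)) :
    inc A (tr A K₀ P) = coeffMap (algebraMap K₀ K) (inc (A₀ A K₀) P) := by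
  ext n
  rfl

theorem tr_C (a : A₀ A K₀) : tr A K₀ (HahnSeries.C a) = HahnSeries.C (incl₀ A K₀ a) :=
  coeffMap_single _ 0 a

theorem red_tr_ne_zero {P : LaurentSeries (A₀ A K₀)} (hP : red (A₀ A K₀) P ≠ 0) :
    red A (tr A K₀ P) ≠ 0 := by
  obtain ⟨n, hn⟩ : ∃ n, (red (A₀ A K₀) P).coeff n ≠ 0 := by
    by_contra hcon
    simp only [not_exists, not_not] at hcon
    exact hP (HahnSeries.ext (funext hcon))
  rw [red_coeff, IsLocalRing.residue_ne_zero_iff_isUnit] at hn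
  intro h0
  have h1 : (red A (tr A K₀ P)).coeff n = 0 := by rw [h0, HahnSeries.coeff_zero]
  have h2 : IsLocalRing.residue A (incl₀ A K₀ (P.coeff n)) ≠ 0 := by
    rw [IsLocalRing.residue_ne_zero_iff_isUnit]
    exact hn.map (incl₀ A K₀)
  exact h2 h1

theorem inc_tr_mem (hF : Compat F F₀) {P : LaurentSeries (A₀ A K₀)}
    (hP : inc (A₀ A K₀) P ∈ F₀) : inc A (tr A K₀ P) ∈ F := by
  rw [inc_tr]
  exact hF _ hP

/-- a non-unit of `A ∩ K₀` is a non-unit of `A`. -/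
theorem residue_incl₀_eq_zero {a : A₀ A K₀} (ha : ¬ IsUnit a) :
    IsLocalRing.residue A (incl₀ A K₀ a) = 0 := by
  by_contra h
  rw [← Ne, IsLocalRing.residue_ne_zero_iff_isUnit] at h
  apply ha
  obtain ⟨b, hb⟩ := isUnit_iff_exists_inv.1 h
  have hb' : algebraMap K₀ K (a : K₀) * (b : K) = 1 := congrArg Subtype.val hb
  have ha0 : (a : K₀) ≠ 0 := by
    intro h0
    rw [h0, map_zero, zero_mul] at hb'
    exact zero_ne_one hb'
  have hinv : algebraMap K₀ K ((a : K₀)⁻¹) = (b : K) := by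
    rw [map_inv₀]
    exact inv_eq_of_mul_eq_one_right hb'
  have hmem : (a : K₀)⁻¹ ∈ A₀ A K₀ := by
    show algebraMap K₀ K ((a : K₀)⁻¹) ∈ A
    rw [hinv]
    exact b.2
  exact isUnit_iff_exists_inv.2 ⟨⟨_, hmem⟩, Subtype.ext (mul_inv_cancel₀ ha0)⟩

/-- the Gauss rings over `A₀` and over `A` -/
theorem bc_mem_gauss (hF : Compat F F₀) {y : F₀} (hy : y ∈ gaussSubring (A₀ A K₀) F₀) :
    bc hF y ∈ gaussSubring A F := by
  obtain ⟨P, Q, hP, hQ, hQ0, h⟩ := hy
  refine ⟨tr A K₀ P, tr A K₀ Q, inc_tr_mem hF hP, inc_tr_mem hF hQ, red_tr_ne_zero hQ0, ?_⟩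
  rw [coe_bc, inc_tr, inc_tr, ← map_mul, h]

/-- the transported normal form. -/
theorem bc_normal [IsDiscreteValuationRing (A₀ A K₀)] (hq : IsQuot (A₀ A K₀) F₀)
    (hF : Compat F F₀) {π₀ : A₀ A K₀} (hπ₀ : Irreducible π₀) (y : F₀) (hy : y ≠ 0) :
    ∃ (a b : ℕ) (P Q : LaurentSeries A), inc A P ∈ F ∧ inc A Q ∈ F ∧ red A P ≠ 0 ∧ red A Q ≠ 0 ∧
      (bc hF y : LaurentSeries K) * (inc A (HahnSeries.C (incl₀ A K₀ π₀)) ^ b * inc A Q) =
        inc A (HahnSeries.C (incl₀ A K₀ π₀)) ^ a * inc A P := by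
  obtain ⟨a, b, P, Q, hP, hQ, hP0, hQ0, h⟩ := hq.exists_normal hπ₀ y hy
  refine ⟨a, b, tr A K₀ P, tr A K₀ Q, inc_tr_mem hF hP, inc_tr_mem hF hQ, red_tr_ne_zero hP0,
    red_tr_ne_zero hQ0, ?_⟩
  have h' := congrArg (coeffMap (algebraMap K₀ K)) h
  simp only [map_mul, map_pow] at h'
  rw [coe_bc, ← tr_C, inc_tr, inc_tr, inc_tr]
  exact h'

theorem inc_C_incl₀_ne_zero {π₀ : A₀ A K₀} (h : π₀ ≠ 0) :
    inc A (HahnSeries.C (incl₀ A K₀ π₀)) ≠ 0 := by
  rw [Ne, inc_eq_zero_iff]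
  apply C_ne_zero
  intro h0
  apply h
  have h1 : algebraMap K₀ K (π₀ : K₀) = 0 := congrArg Subtype.val h0
  exact Subtype.ext ((map_eq_zero _).1 h1)

/-- the constant `π ^ c` as an element of the Gauss ring. -/
def cst (A : ValuationSubring K) (F : IntermediateField K (LaurentSeries K)) (a : A) :
    gaussSubring A F := ⟨algebraMap K F (a : K), Inst.algebraMap_mem_gauss A F a⟩

theorem coe_cst (a : A) : (((cst A F a : gaussSubring A F) : F) : LaurentSeries K) =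
    inc A (HahnSeries.C a) := (inc_C A a).symm

/-- if `f * π ^ c * Q = P` with `P`, `Q` of nonzero reduction then `rho f ≠ 0` and
`rho π ^ c ≠ 0`. -/
theorem rho_mul_ne_zero (f : gaussSubring A F) (a : A) (c : ℕ) {P Q : LaurentSeries A}
    (hP : red A P ≠ 0) (hQ : red A Q ≠ 0)
    (h : ((f : F) : LaurentSeries K) * (inc A (HahnSeries.C a) ^ c * inc A Q) = inc A P) :
    Inst.rho A F f * Inst.rho A F (cst A F a) ^ c ≠ 0 := by
  have h1 := Inst.rho_spec (A := A) (F := F) (f * cst A F a ^ c) (P := P) (Q := Q) hQ (by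
    push_cast
    rw [coe_cst, ← h]
    ring)
  intro h0
  rw [map_mul, map_pow, h0, zero_mul] at h1
  exact hP h1.symm

theorem unram_gauss [IsDiscreteValuationRing (A₀ A K₀)] (hq : IsQuot (A₀ A K₀) F₀)
    (hF : Compat F F₀) {π₀ : A₀ A K₀} (hπ₀ : Irreducible π₀) (y : F₀)
    (hy : bc hF y ∈ gaussSubring A F) (h0 : rho A F ⟨bc hF y, hy⟩ = 0) :
    bc hF (y / algebraMap K₀ F₀ (π₀ : K₀)) ∈ gaussSubring A F := by
  rcases eq_or_ne y 0 with rfl | hy0
  · rw [zero_div, map_zero]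
    exact (gaussSubring A F).zero_mem
  obtain ⟨a, b, P, Q, hP, hQ, hP0, hQ0, h⟩ := bc_normal hq hF hπ₀ y hy0
  have hc0 := inc_C_incl₀_ne_zero (A := A) hπ₀.ne_zero
  set ϖ := inc A (HahnSeries.C (incl₀ A K₀ π₀)) with hϖ
  rcases Nat.lt_or_ge b a with hab | hab
  · obtain ⟨c, rfl⟩ := Nat.exists_eq_add_of_lt hab
    refine ⟨HahnSeries.C (incl₀ A K₀ π₀) ^ c * P, Q, ?_, hQ, hQ0, ?_⟩
    · rw [map_mul, map_pow]
      exact mul_mem (pow_mem (inc_C_mem _) c) hP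
    · have e1 : ((bc hF (y / algebraMap K₀ F₀ (π₀ : K₀)) : F) : LaurentSeries K) =
          (bc hF y : LaurentSeries K) / ϖ := by
        rw [map_div₀, bc_algebraMap, hϖ, inc_C]
        rfl
      rw [e1, map_mul, map_pow, ← hϖ]
      apply mul_left_cancel₀ (pow_ne_zero (b + 1) hc0)
      calc ϖ ^ (b + 1) * ((bc hF y : LaurentSeries K) / ϖ * inc A Q)
          = (ϖ / ϖ) * ((bc hF y : LaurentSeries K) * (ϖ ^ b * inc A Q)) := by
            rw [pow_succ]; ring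
        _ = ϖ ^ (b + c + 1) * inc A P := by rw [div_self hc0, one_mul, h]
        _ = ϖ ^ (b + 1) * (ϖ ^ c * inc A P) := by ring
  · exfalso
    obtain ⟨c, rfl⟩ := Nat.exists_eq_add_of_le hab
    have h1 : (bc hF y : LaurentSeries K) * (ϖ ^ c * inc A Q) = inc A P := by
      apply mul_left_cancel₀ (pow_ne_zero a hc0)
      rw [← h, pow_add]
      ring
    have h2 := rho_mul_ne_zero (⟨bc hF y, hy⟩ : gaussSubring A F) (incl₀ A K₀ π₀) c hP0 hQ0 h1
    rw [h0, zero_mul] at h2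
    exact h2 rfl

/-- conversely: the Gauss ring of `F` restricts to the Gauss ring of `F₀`. -/
theorem mem_gauss_of_bc [IsDiscreteValuationRing (A₀ A K₀)] (hq : IsQuot (A₀ A K₀) F₀)
    (hF : Compat F F₀) (y : F₀) (hy : bc hF y ∈ gaussSubring A F) :
    y ∈ gaussSubring (A₀ A K₀) F₀ := by
  rcases eq_or_ne y 0 with rfl | hy0
  · exact (gaussSubring (A₀ A K₀) F₀).zero_mem
  obtain ⟨π₀, hπ₀⟩ := IsDiscreteValuationRing.exists_irreducible (A₀ A K₀)
  obtain ⟨a, b, P, Q, hP, hQ, hP0, hQ0, h⟩ := hq.exists_normal hπ₀ y hy0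
  have hd0 : inc (A₀ A K₀) (HahnSeries.C π₀) ≠ 0 := by
    rw [Ne, inc_eq_zero_iff]
    exact C_ne_zero hπ₀.ne_zero
  rcases Nat.lt_or_ge a b with hab | hab
  · exfalso
    obtain ⟨c, rfl⟩ := Nat.exists_eq_add_of_lt hab
    have hc0 := inc_C_incl₀_ne_zero (A := A) hπ₀.ne_zero
    have h1 : (y : LaurentSeries K₀) *
        (inc (A₀ A K₀) (HahnSeries.C π₀) ^ (c + 1) * inc (A₀ A K₀) Q) = inc (A₀ A K₀) P := by
      apply mul_left_cancel₀ (pow_ne_zero a hd0)
      rw [← h]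
      ring
    have h2 : (bc hF y : LaurentSeries K) *
        (inc A (HahnSeries.C (incl₀ A K₀ π₀)) ^ (c + 1) * inc A (tr A K₀ Q)) =
          inc A (tr A K₀ P) := by
      have h' := congrArg (coeffMap (algebraMap K₀ K)) h1
      simp only [map_mul, map_pow] at h'
      rw [coe_bc, ← tr_C, inc_tr, inc_tr, inc_tr]
      exact h'
    have h3 := rho_mul_ne_zero (⟨bc hF y, hy⟩ : gaussSubring A F) (incl₀ A K₀ π₀) (c + 1)
      (red_tr_ne_zero hP0) (red_tr_ne_zero hQ0) h2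
    have h4 : Inst.rho A F (cst A F (incl₀ A K₀ π₀)) = 0 := by
      rw [cst, Inst.rho_algebraMap, residue_incl₀_eq_zero hπ₀.not_isUnit, map_zero]
    rw [h4, pow_succ, mul_zero, mul_zero] at h3
    exact h3 rfl
  · obtain ⟨c, rfl⟩ := Nat.exists_eq_add_of_le hab
    refine ⟨HahnSeries.C π₀ ^ c * P, Q, ?_, hQ, hQ0, ?_⟩
    · rw [map_mul, map_pow]
      exact mul_mem (pow_mem (inc_C_mem π₀) c) hP
    · apply mul_left_cancel₀ (pow_ne_zero b hd0)
      rw [map_mul, map_pow]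
      calc inc (A₀ A K₀) (HahnSeries.C π₀) ^ b * ((y : LaurentSeries K₀) * inc (A₀ A K₀) Q)
          = (y : LaurentSeries K₀) * (inc (A₀ A K₀) (HahnSeries.C π₀) ^ b * inc (A₀ A K₀) Q) := by
            ring
        _ = inc (A₀ A K₀) (HahnSeries.C π₀) ^ (b + c) * inc (A₀ A K₀) P := h
        _ = _ := by rw [pow_add]; ring

/-- both valuations, if `w` is defined over `K₀`. -/
theorem unram_OO [IsDiscreteValuationRing (A₀ A K₀)] (hq : IsQuot (A₀ A K₀) F₀)
    (hF : Compat F F₀) (hw : ∀ y : F₀, ∃ y' : F₀, bc hF y' = w (bc hF y))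
    {π₀ : A₀ A K₀} (hπ₀ : Irreducible π₀) (y : F₀)
    (hy : bc hF y ∈ OO A F w) (h0 : red2 A F w ⟨bc hF y, hy⟩ = 0) :
    bc hF (y / algebraMap K₀ F₀ (π₀ : K₀)) ∈ OO A F w := by
  have h1 : Inst.rho A F ⟨bc hF y, hy.1⟩ = 0 := congrArg Prod.fst h0
  have h2 : Inst.rho A F ⟨w (bc hF y), hy.2⟩ = 0 := congrArg Prod.snd h0
  refine Inst.mem_OO.2 ⟨unram_gauss hq hF hπ₀ y hy.1 h1, ?_⟩
  obtain ⟨y', hy'⟩ := hw y
  have hm : bc hF y' ∈ gaussSubring A F := by rw [hy']; exact hy.2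
  have h3 : Inst.rho A F ⟨bc hF y', hm⟩ = 0 := by
    have e : (⟨bc hF y', hm⟩ : gaussSubring A F) = ⟨w (bc hF y), hy.2⟩ := Subtype.ext hy'
    rw [e, h2]
  have h4 := unram_gauss hq hF hπ₀ y' hm h3
  have e : w (bc hF (y / algebraMap K₀ F₀ (π₀ : K₀))) =
      bc hF (y' / algebraMap K₀ F₀ (π₀ : K₀)) := by
    rw [map_div₀, map_div₀, map_div₀, bc_algebraMap, w.commutes, hy']
  rw [e]
  exact h4

end Fermat.Agent.S34.Nodal.Inst.II

end
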