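/-
C1 nodal core, instantiation, BLOCK II (sub-architect and prover helper237).

The field `layerII` of `Inst.Contracts` for the modular function field of level `M * q` over `ℚ̄`,
from block G4 (finiteness of the `K₀`-rational part of the chart over `A₀[x₀]`, for a cofinal family of
number fields `K₀`).
-/
import Fermat.Agent.S34.Nodal.Inst.II.SubLevel
import Fermat.Agent.S34.Nodal.Inst.II.Unram
import Fermat.Agent.S34.Nodal.Inst.II.FK
import Fermat.Agent.S18.Descent.Union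
import Fermat.Agent.S18.Descent.DVR
import Fermat.Agent.S18.Descent.Series

set_option autoImplicit false
set_option linter.unusedSectionVars false
set_option linter.style.haveILetI false

noncomputable section

namespace Fermat.Agent.S34.Nodal.Inst.II

open ModularCurve Fermat.Agent.S18 Fermat.Agent.S18.Vert Fermat.Agent.S24

section OneLevel

variable {K₀ K : Type*} [Field K₀] [Field K] [Algebra ℚ K₀] [Algebra ℚ K] [Algebra K₀ K]
variable {A : ValuationSubring K} {M q : ℕ} [NeZero M] [NeZero q]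

/-- a non-unit of `A₀` is a non-unit of `A`. -/
theorem algebraMap_mem_nonunits {a : A₀ A K₀} (ha : ¬ IsUnit a) :
    algebraMap K₀ K (a : K₀) ∈ A.nonunits := by
  rw [ValuationSubring.mem_nonunits_iff_exists_mem_maximalIdeal]
  refine ⟨a.2, ?_⟩
  rw [IsLocalRing.mem_maximalIdeal, mem_nonunits_iff]
  intro hu
  apply ha
  obtain ⟨c, hc⟩ := isUnit_iff_exists_inv.mp hu
  have hc' : algebraMap K₀ K (a : K₀) * (c : K) = 1 := congrArg Subtype.val hc
  have ha0 : algebraMap K₀ K (a : K₀) ≠ 0 := left_ne_zero_of_mul_eq_one hc'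
  have ha0' : (a : K₀) ≠ 0 := fun h => ha0 (by rw [h, map_zero])
  refine isUnit_iff_exists_inv.mpr ⟨⟨(a : K₀)⁻¹, ?_⟩, Subtype.ext (mul_inv_cancel₀ ha0')⟩
  show algebraMap K₀ K (a : K₀)⁻¹ ∈ A
  rw [map_inv₀, ← eq_inv_of_mul_eq_one_right hc']
  exact c.2

/-- The level `K₀`, given block G4. -/
theorem isSubLevel_FK [IsDiscreteValuationRing (A₀ A K₀)] {π₀ : A₀ A K₀} (hπ₀ : Irreducible π₀)
    (hq : q.Prime) (w : FK K (M * q) ≃ₐ[K] FK K (M * q))
    (hal : ∀ y : FK K M, w (heckeAlphaBar K M q y) = heckeBetaBar K M q y)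
    (hbe : ∀ y : FK K M, w (heckeBetaBar K M q y) = heckeAlphaBar K M q y)
    {x : FK K (M * q)} {x₀ : FK K₀ (M * q)} (hx : bc (compat_FK K₀ K (M * q)) x₀ = x)
    (hfin : Fin1 A w (compat_FK K₀ K (M * q)) x x₀) :
    IsSubLevel A w (compat_FK K₀ K (M * q)) x (π₀ : K₀) x₀ where
  noeth := inferInstance
  π_ne := fun h => hπ₀.ne_zero (Subtype.ext h)
  π_mem := algebraMap_mem_nonunits hπ₀.not_isUnit
  x_eq := hx
  unram := unram_OO (isQuot_FK _ _) _ (exists_bc_eq_w M q hq w hal hbe) hπ₀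
  fin1 := hfin

end OneLevel

section Bar

variable {M q : ℕ} [NeZero M] [NeZero q]

/-- **Block II** for the function field of level `M * q` over `ℚ̄`.  `Good` is any cofinal family of
number fields for which block G4 is available. -/
theorem layerII_bar (hq : q.Prime) (A : ValuationSubring Kbar) (hA : A.LiesOverPrime q) {n : ℕ}
    (hn : 0 < n) (hqn : ¬ q ∣ n) (w : FK Kbar (M * q) ≃ₐ[Kbar] FK Kbar (M * q))
    (hal : ∀ y : FK Kbar M, w (heckeAlphaBar Kbar M q y) = heckeBetaBar Kbar M q y)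
    (hbe : ∀ y : FK Kbar M, w (heckeBetaBar Kbar M q y) = heckeAlphaBar Kbar M q y)
    (x : FK Kbar (M * q))
    (hroot : ∀ z : FK Kbar (M * q), z ^ n ∈ gaussSubring A (FK Kbar (M * q)) →
      z ∈ gaussSubring A (FK Kbar (M * q)))
    (hxT : Transcendental Kbar x) (hxO : x ∈ OO A (FK Kbar (M * q)) w)
    (hxinvO : x⁻¹ ∈ OO A (FK Kbar (M * q)) w)
    (halg : Algebra.IsAlgebraic (Algebra.adjoin Kbar {x}) (FK Kbar (M * q)))
    (Good : IntermediateField ℚ Kbar → Prop)
    (hGood : ∀ K₁ : IntermediateField ℚ Kbar, FiniteDimensional ℚ K₁ →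
      ∃ K₀ : IntermediateField ℚ Kbar, K₁ ≤ K₀ ∧ FiniteDimensional ℚ K₀ ∧ Good K₀)
    (hG4 : ∀ K₀ : IntermediateField ℚ Kbar, FiniteDimensional ℚ K₀ → Good K₀ →
      ∃ x₀ : FK K₀ (M * q), bc (compat_FK K₀ Kbar (M * q)) x₀ = x ∧
        Fin1 A w (compat_FK K₀ Kbar (M * q)) x x₀)
    (h s1 s2 : OO A (FK Kbar (M * q)) w) (hh : red2 A (FK Kbar (M * q)) w h = 1)
    (hs1 : red2 A (FK Kbar (M * q)) w s1 = 1) (hs2 : red2 A (FK Kbar (M * q)) w s2 = 1)
    (h1 : (s1 : FK Kbar (M * q)) ^ n * h ∈ chart A (FK Kbar (M * q)) w x)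
    (h2 : (s2 : FK Kbar (M * q)) ^ n * h ∈ chart A (FK Kbar (M * q)) w x⁻¹) :
    ∃ z : FK Kbar (M * q), (h : FK Kbar (M * q)) = z ^ n := by
  classical
  haveI : Fact q.Prime := ⟨hq⟩
  haveI : Algebra.IsAlgebraic ℚ Kbar := AlgebraicClosure.isAlgebraic ℚ
  -- a denominator
  obtain ⟨d, hd, hdh⟩ := exists_den hxO halg hn (inv_mem_OO hh)
  -- a number field of definition
  obtain ⟨K₁, hK₁, -, -, hdef⟩ := Descent.exists_definedOver_finset
    (F₀ := modularFunctionFieldFull (M * q))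
    ({((h : FK Kbar (M * q)) : LaurentSeries Kbar), ((s1 : FK Kbar (M * q)) : LaurentSeries Kbar),
      ((s2 : FK Kbar (M * q)) : LaurentSeries Kbar), (d : LaurentSeries Kbar)} :
        Finset (LaurentSeries Kbar))
    (by
      intro y hy
      simp only [Finset.mem_insert, Finset.mem_singleton] at hy
      rcases hy with rfl | rfl | rfl | rfl
      · exact (h : FK Kbar (M * q)).2
      · exact (s1 : FK Kbar (M * q)).2
      · exact (s2 : FK Kbar (M * q)).2
      · exact d.2) ∅ ⊥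
  obtain ⟨K₀, hle, hK₀, hgood⟩ := hGood K₁ hK₁
  obtain ⟨x₀, hx₀, hfin⟩ := hG4 K₀ hK₀ hgood
  have hrange : ∀ y : FK Kbar (M * q),
      (y : LaurentSeries Kbar) ∈ ({((h : FK Kbar (M * q)) : LaurentSeries Kbar),
        ((s1 : FK Kbar (M * q)) : LaurentSeries Kbar),
        ((s2 : FK Kbar (M * q)) : LaurentSeries Kbar), (d : LaurentSeries Kbar)} :
        Finset (LaurentSeries Kbar)) → y ∈ (bc (compat_FK K₀ Kbar (M * q))).range := by
    intro y hy
    obtain ⟨y₀, hy₀, hy₀'⟩ := (hdef _ hy).mono hle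
    exact ⟨⟨y₀, hy₀⟩, Subtype.ext hy₀'⟩
  haveI : IsDiscreteValuationRing (A₀ A K₀) :=
    Descent.isDiscreteValuationRing_restrict K₀ hq.ne_zero hA
  obtain ⟨π₀, hπ₀⟩ := IsDiscreteValuationRing.exists_irreducible (A₀ A K₀)
  have L := isSubLevel_FK (K₀ := K₀) (A := A) hπ₀ hq w hal hbe hx₀ hfin
  exact L.exists_root hn (Nat.cast_ne_zero.mpr hn.ne') (natCast_inv_mem_comap A hA K₀ hqn) hroot hxT
    hxO hxinvO h s1 s2 hh hs1 hs2 h1 h2 d hd hdh (hrange _ (by simp)) (hrange _ (by simp))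
    (hrange _ (by simp)) (hrange _ (by simp))

end Bar

end Fermat.Agent.S34.Nodal.Inst.II

end
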