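/-
C1 nodal core, instantiation, BLOCK II (sub-architect and prover helper237).

The field `layerII` of `Inst.Contracts` for the modular function field of level `M * q` over `ℚ̄`,
from the existence, over a cofinal family of number fields `K₀`, of a complete pair of vertical
valuation rings (`HasG4`; produced by helper39's hub `BAD.LevelQ.LQ` together with `IsGauss` for
`V 0`).
-/
import Fermat.Agent.S34.Nodal.Inst.II.Modular
import Fermat.Agent.S34.Nodal.Inst.II.FromLQ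

set_option autoImplicit false
set_option linter.unusedSectionVars false
set_option linter.style.haveILetI false

noncomputable section

namespace Fermat.Agent.S34.Nodal.Inst.II

open ModularCurve Fermat.Agent.S18 Fermat.Agent.S18.Vert Fermat.Agent.S24 Fermat.Agent.BAD
  IntermediateField

/-- What block II needs from the model of level `M * q` over `A₀ = A ∩ K₀`.  (Stated for an abstract
type `K₀`: instance search is very slow for the coercion of an `IntermediateField`.) -/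
def HasG4 {K : Type*} [Field K] [Algebra ℚ K] (A : ValuationSubring K) (K₀ : Type*) [Field K₀]
    [Algebra ℚ K₀] [Algebra K₀ K] (M q : ℕ) [NeZero M] [NeZero q] (x : FK K (M * q)) : Prop :=
  ∃ (ϖ₀ : K₀) (w₀ : FK K₀ (M * q) ≃ₐ[K₀] FK K₀ (M * q))
    (V : Fin 2 → ValuationSubring (FK K₀ (M * q))) (x₀ : FK K₀ (M * q)),
    (∀ y : FK K₀ M, w₀ (heckeAlphaBar K₀ M q y) = heckeBetaBar K₀ M q y) ∧
    (∀ y : FK K₀ M, w₀ (heckeBetaBar K₀ M q y) = heckeAlphaBar K₀ M q y) ∧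
    IsGauss (A₀ A K₀) ϖ₀ (FK K₀ (M * q)) (V 0) ∧ (∀ y, y ∈ V 1 ↔ w₀ y ∈ V 0) ∧
    LevelQ.IsMVert (A₀ A K₀) ϖ₀ V K₀⟮x₀⟯ ∧ (∀ c, LevelQ.IsMCoord (A₀ A K₀) (V c) x₀) ∧
    bc (compat_FK K₀ K (M * q)) x₀ = x

theorem HasG4.exists_fin1 {K : Type*} [Field K] [Algebra ℚ K] {A : ValuationSubring K} {K₀ : Type*}
    [Field K₀] [Algebra ℚ K₀] [Algebra K₀ K] {M q : ℕ} [NeZero M] [NeZero q] {x : FK K (M * q)}
    [Algebra.IsAlgebraic K₀ K] [IsDiscreteValuationRing (A₀ A K₀)] (H : HasG4 A K₀ M q x)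
    (hq : q.Prime) (w : FK K (M * q) ≃ₐ[K] FK K (M * q))
    (hal : ∀ y : FK K M, w (heckeAlphaBar K M q y) = heckeBetaBar K M q y)
    (hbe : ∀ y : FK K M, w (heckeBetaBar K M q y) = heckeAlphaBar K M q y) :
    ∃ x₀ : FK K₀ (M * q), bc (compat_FK K₀ K (M * q)) x₀ = x ∧
      Fin1 A w (compat_FK K₀ K (M * q)) x x₀ := by
  obtain ⟨ϖ₀, w₀, V, x₀, hal₀, hbe₀, hG, hV1, hV, hc, rfl⟩ := H
  exact ⟨x₀, rfl, fin1_of_two hq w hal hbe w₀ hal₀ hbe₀ hG hV1 hV hc⟩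

variable {M q : ℕ} [NeZero M] [NeZero q]

/-- **Block II**, final form. -/
theorem layerII_of_hasG4 (hq : q.Prime) (A : ValuationSubring Kbar) (hA : A.LiesOverPrime q) {n : ℕ}
    (hn : 0 < n) (hqn : ¬ q ∣ n) (w : FK Kbar (M * q) ≃ₐ[Kbar] FK Kbar (M * q))
    (hal : ∀ y : FK Kbar M, w (heckeAlphaBar Kbar M q y) = heckeBetaBar Kbar M q y)
    (hbe : ∀ y : FK Kbar M, w (heckeBetaBar Kbar M q y) = heckeAlphaBar Kbar M q y)
    (x : FK Kbar (M * q))
    (hroot : ∀ z : FK Kbar (M * q), z ^ n ∈ gaussSubring A (FK Kbar (M * q)) →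
      z ∈ gaussSubring A (FK Kbar (M * q)))
    (hxT : Transcendental Kbar x) (hxO : x ∈ OO A (FK Kbar (M * q)) w)
    (hxinvO : x⁻¹ ∈ OO A (FK Kbar (M * q)) w)
    (halg : Algebra.IsAlgebraic (Algebra.adjoin Kbar {x}) (FK Kbar (M * q)))
    (Good : IntermediateField ℚ Kbar → Prop)
    (hGood : ∀ K₁ : IntermediateField ℚ Kbar, FiniteDimensional ℚ K₁ →
      ∃ K₀ : IntermediateField ℚ Kbar, K₁ ≤ K₀ ∧ FiniteDimensional ℚ K₀ ∧ Good K₀)
    (hG4 : ∀ K₀ : IntermediateField ℚ Kbar, FiniteDimensional ℚ K₀ → Good K₀ → HasG4 A K₀ M q x)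
    (h s1 s2 : OO A (FK Kbar (M * q)) w) (hh : red2 A (FK Kbar (M * q)) w h = 1)
    (hs1 : red2 A (FK Kbar (M * q)) w s1 = 1) (hs2 : red2 A (FK Kbar (M * q)) w s2 = 1)
    (h1 : (s1 : FK Kbar (M * q)) ^ n * h ∈ chart A (FK Kbar (M * q)) w x)
    (h2 : (s2 : FK Kbar (M * q)) ^ n * h ∈ chart A (FK Kbar (M * q)) w x⁻¹) :
    ∃ z : FK Kbar (M * q), (h : FK Kbar (M * q)) = z ^ n := by
  refine layerII_bar hq A hA hn hqn w hal hbe x hroot hxT hxO hxinvO halg Good hGood ?_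
    h s1 s2 hh hs1 hs2 h1 h2
  intro K₀ hK₀ hgood
  haveI : IsDiscreteValuationRing (A₀ A K₀) :=
    Descent.isDiscreteValuationRing_restrict K₀ hq.ne_zero hA
  haveI : Algebra.IsAlgebraic ℚ Kbar := AlgebraicClosure.isAlgebraic ℚ
  haveI : Algebra.IsAlgebraic K₀ Kbar := Algebra.IsAlgebraic.tower_top (K := ℚ) K₀
  exact (hG4 K₀ hK₀ hgood).exists_fin1 hq w hal hbe

end Fermat.Agent.S34.Nodal.Inst.II

end
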