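/-
C1 nodal core, instantiation, BLOCK II (sub-architect and prover helper237).

`HasG4` (the input of `II.layerII_of_hasG4`) from helper39's hub `BAD.LevelQ.LQ`.
-/
import Fermat.Agent.S34.Nodal.Inst.II.Final
import Fermat.Agent.BAD.LevelQ.Hub.Basic

set_option autoImplicit false
set_option linter.unusedSectionVars false
set_option linter.style.haveILetI false

noncomputable section

namespace Fermat.Agent.S34.Nodal.Inst.II

open ModularCurve Fermat.Agent.S18 Fermat.Agent.S18.Vert Fermat.Agent.S24 Fermat.Agent.BAD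
  IntermediateField

/-- the base coordinate is defined over `ℚ` -/
theorem bc_xK {K₀ K : Type*} [Field K₀] [Field K] [Algebra ℚ K₀] [Algebra ℚ K] [Algebra K₀ K]
    {M ℓ : ℕ} (D : BaseData M ℓ) : bc (compat_FK K₀ K M) (D.xK K₀) = D.xK K :=
  Subtype.ext (Descent.coeffMap_coeffEmb' _ _)

/-- `HasG4` from the hub. -/
theorem HasG4.of_LQ {K : Type*} [Field K] [Algebra ℚ K] {A : ValuationSubring K} {K₀ : Type*}
    [Field K₀] [Algebra ℚ K₀] [Algebra K₀ K] {M q : ℕ} [NeZero M] [NeZero q] {ϖ₀ : K₀}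
    {w₀ : FK K₀ (M * q) ≃ₐ[K₀] FK K₀ (M * q)} {γ : FK K₀ M →+* FK K₀ M}
    {Ow' : ValuationSubring (FK K₀ M)} {V : Fin 2 → ValuationSubring (FK K₀ (M * q))}
    {x' : FK K₀ M}
    (H : LevelQ.LQ (A₀ A K₀) ϖ₀ q (heckeAlphaBar K₀ M q) (heckeBetaBar K₀ M q) w₀ γ Ow' V x')
    (hG : IsGauss (A₀ A K₀) ϖ₀ (FK K₀ (M * q)) (V 0)) :
    HasG4 A K₀ M q (heckeAlphaBar K M q (bc (compat_FK K₀ K M) x') *
      heckeBetaBar K M q (bc (compat_FK K₀ K M) x')) :=
  ⟨ϖ₀, w₀, V, LevelQ.xx (heckeAlphaBar K₀ M q) (heckeBetaBar K₀ M q) x', H.w_al, H.w_be, hG,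
    H.V_one, H.isMVert, H.isMCoord, by rw [LevelQ.xx, map_mul, bc_al, bc_be]⟩

end Fermat.Agent.S34.Nodal.Inst.II

end
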